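import Mathlib

set_option autoImplicit false

namespace Fermat.Agent.DefRing

open Matrix IsLocalRing

/-- Data used to rigidify deformations: residual lifts and two group ring elements. -/
structure FrameDatum (𝒪 : Type) [CommRing 𝒪] [IsLocalRing 𝒪] (G : Type) [Group G] where
  M : G → Matrix (Fin 2) (Fin 2) 𝒪
  α : G →₀ 𝒪
  β : G →₀ 𝒪
  hα : ∀ i j, (α.sum fun g c => c • M g) i j - (!![1, 0; 0, 0] : Matrix (Fin 2) (Fin 2) 𝒪) i j ∈
    maximalIdeal 𝒪
  hβ : ∀ i j, (β.sum fun g c => c • M g) i j - (!![0, 0; 1, 0] : Matrix (Fin 2) (Fin 2) 𝒪) i j ∈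
    maximalIdeal 𝒪

variable {𝒪 : Type} [CommRing 𝒪] [IsLocalRing 𝒪] {G : Type} [Group G] (F : FrameDatum 𝒪 G)

section

variable {A : Type} [CommRing A] [IsLocalRing A] [Algebra 𝒪 A] [hAloc : IsLocalHom (algebraMap 𝒪 A)]

/-- the value of a group ring element on a matrix valued function -/
def gsum (a : G →₀ 𝒪) (T : G → Matrix (Fin 2) (Fin 2) A) : Matrix (Fin 2) (Fin 2) A :=
  a.sum fun g c => c • T g

omit [IsLocalRing 𝒪] [Group G] [IsLocalRing A] hAloc in
theorem gsum_apply (a : G →₀ 𝒪) (T : G → Matrix (Fin 2) (Fin 2) A) (i j : Fin 2) :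
    gsum a T i j = a.sum fun g c => algebraMap 𝒪 A c * T g i j := by
  rw [gsum, Finsupp.sum, Finsupp.sum, Matrix.sum_apply]
  simp [Algebra.smul_def]

omit [IsLocalRing 𝒪] [Group G] [IsLocalRing A] hAloc in
theorem gsum_conj (a : G →₀ 𝒪) (T T' : G → Matrix (Fin 2) (Fin 2) A)
    (Q Q' : Matrix (Fin 2) (Fin 2) A) (h : ∀ g, Q * T g = T' g * Q') :
    Q * gsum a T = gsum a T' * Q' := by
  rw [gsum, gsum, Finsupp.sum, Finsupp.sum, Finset.mul_sum, Finset.sum_mul]
  refine Finset.sum_congr rfl fun g _ => ?_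
  rw [mul_smul_comm, h, smul_mul_assoc]

/-- congruence of `T` to the residual representation. -/
def ResidOK (T : G → Matrix (Fin 2) (Fin 2) A) : Prop :=
  ∀ g i j, T g i j - algebraMap 𝒪 A (F.M g i j) ∈ maximalIdeal A

include hAloc in
theorem gsum_resid {T : G → Matrix (Fin 2) (Fin 2) A} (hT : ResidOK F T) (a : G →₀ 𝒪)
    (E : Matrix (Fin 2) (Fin 2) 𝒪)
    (hE : ∀ i j, (a.sum fun g c => c • F.M g) i j - E i j ∈ maximalIdeal 𝒪) (i j : Fin 2) :
    gsum a T i j - algebraMap 𝒪 A (E i j) ∈ maximalIdeal A := by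
  have h1 : gsum a T i j - algebraMap 𝒪 A ((a.sum fun g c => c • F.M g) i j) ∈ maximalIdeal A := by
    rw [gsum_apply, Finsupp.sum, Finsupp.sum, Matrix.sum_apply, map_sum, ← Finset.sum_sub_distrib]
    refine Ideal.sum_mem _ fun g _ => ?_
    rw [Matrix.smul_apply, smul_eq_mul, map_mul, ← mul_sub]
    exact Ideal.mul_mem_left _ _ (hT g i j)
  have h2 : algebraMap 𝒪 A ((a.sum fun g c => c • F.M g) i j - E i j) ∈ maximalIdeal A :=
    map_nonunit (algebraMap 𝒪 A) _ (hE i j)
  rw [map_sub] at h2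
  have := Ideal.add_mem _ h1 h2
  rwa [sub_add_sub_cancel] at this

/-- `T` is in canonical form. -/
structure IsCanon (T : G → Matrix (Fin 2) (Fin 2) A) : Prop where
  resid : ResidOK F T
  canα : gsum F.α T 1 0 = 0
  canβ0 : gsum F.β T 0 0 = 0
  canβ1 : gsum F.β T 1 0 = 1

include hAloc in
omit hAloc in
theorem isUnit_of_sub_one_mem {a : A} (h : a - 1 ∈ maximalIdeal A) : IsUnit a := by
  by_contra hu
  have h1 : a ∈ maximalIdeal A := hu
  have := Ideal.sub_mem _ h1 h
  rw [sub_sub_cancel] at this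
  exact (Ideal.ne_top_iff_one _).mp (Ideal.IsMaximal.ne_top inferInstance) this

include hAloc in
/-- uniqueness of the canonical form -/
theorem IsCanon.eq_of_conj {T T' : G → Matrix (Fin 2) (Fin 2) A} (hT : IsCanon F T)
    (hT' : IsCanon F T') (Q Q' : Matrix (Fin 2) (Fin 2) A) (hQ : Q * Q' = 1)
    (h : ∀ g, Q * T g = T' g * Q) : T = T' := by
  have ha := gsum_conj F.α T T' Q Q h
  have hb := gsum_conj F.β T T' Q Q h
  have ha00 := gsum_resid F hT.resid F.α _ F.hα 0 0
  have ha11 := gsum_resid F hT'.resid F.α _ F.hα 1 1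
  simp only [of_apply, cons_val', cons_val_zero, cons_val_fin_one, cons_val_one, map_one,
    map_zero, sub_zero] at ha00 ha11
  have hu : IsUnit (gsum F.α T 0 0 - gsum F.α T' 1 1) := by
    apply isUnit_of_sub_one_mem
    have := Ideal.sub_mem _ ha00 ha11
    rwa [sub_right_comm] at this
  have e1 := congrFun (congrFun ha 1) 0
  rw [mul_apply, mul_apply, Fin.sum_univ_two, Fin.sum_univ_two, hT.canα, hT'.canα, mul_zero,
    add_zero, zero_mul, zero_add] at e1
  have hQ10 : Q 1 0 = 0 := by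
    have : Q 1 0 * (gsum F.α T 0 0 - gsum F.α T' 1 1) = 0 := by linear_combination e1
    exact (hu.mul_left_eq_zero).mp this
  have e2 := congrFun (congrFun hb 0) 0
  rw [mul_apply, mul_apply, Fin.sum_univ_two, Fin.sum_univ_two, hT.canβ0, hT'.canβ0, hT.canβ1,
    hQ10, mul_zero, zero_mul, mul_zero, mul_one, zero_add, add_zero] at e2
  have e3 := congrFun (congrFun hb 1) 0
  rw [mul_apply, mul_apply, Fin.sum_univ_two, Fin.sum_univ_two, hT.canβ0, hT'.canβ1, hT.canβ1,
    hQ10, mul_zero, mul_one, zero_add, one_mul, mul_zero, add_zero] at e3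
  have hQs : Q = Q 0 0 • (1 : Matrix (Fin 2) (Fin 2) A) := by
    ext i j
    fin_cases i <;> fin_cases j <;> simp [hQ10, e2, e3]
  have hQu : IsUnit (Q 0 0) := by
    have h1 := congrFun (congrFun hQ 0) 0
    rw [mul_apply, Fin.sum_univ_two, e2, zero_mul, add_zero, one_apply_eq] at h1
    exact IsUnit.of_mul_eq_one _ h1
  funext g
  have h2 := h g
  rw [hQs, smul_mul_assoc, one_mul, mul_smul_comm, mul_one] at h2
  exact hQu.smul_left_cancel.mp h2

include hAloc in
/-- existence of a canonical form -/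
theorem exists_canon [IsAdicComplete (maximalIdeal A) A] {T : G →* Matrix (Fin 2) (Fin 2) A}
    (hT : ResidOK F T) :
    ∃ (T' : G →* Matrix (Fin 2) (Fin 2) A) (Q Q' : Matrix (Fin 2) (Fin 2) A),
      IsCanon F T' ∧ Q * Q' = 1 ∧ Q' * Q = 1 ∧ ∀ g, T' g = Q' * T g * Q := by
  set a := gsum F.α T with ha
  set c := gsum F.β T with hc
  have ha00 := gsum_resid F hT F.α _ F.hα 0 0
  have ha01 := gsum_resid F hT F.α _ F.hα 0 1
  have ha10 := gsum_resid F hT F.α _ F.hα 1 0
  have ha11 := gsum_resid F hT F.α _ F.hα 1 1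
  have hc00 := gsum_resid F hT F.β _ F.hβ 0 0
  have hc01 := gsum_resid F hT F.β _ F.hβ 0 1
  have hc10 := gsum_resid F hT F.β _ F.hβ 1 0
  have hc11 := gsum_resid F hT F.β _ F.hβ 1 1
  simp only [of_apply, cons_val', cons_val_zero, cons_val_fin_one, cons_val_one, map_one,
    map_zero, sub_zero] at ha00 ha01 ha10 ha11 hc00 hc01 hc10 hc11
  rw [← ha] at ha00 ha01 ha10 ha11
  rw [← hc] at hc00 hc01 hc10 hc11
  -- Hensel
  obtain ⟨lam, hlam, hlam1⟩ : ∃ lam : A, lam ^ 2 - (a 0 0 + a 1 1) * lam +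
      (a 0 0 * a 1 1 - a 0 1 * a 1 0) = 0 ∧ lam - 1 ∈ maximalIdeal A := by
    let f : Polynomial A := Polynomial.X ^ 2 - Polynomial.C (a 0 0 + a 1 1) * Polynomial.X +
      Polynomial.C (a 0 0 * a 1 1 - a 0 1 * a 1 0)
    have hf : f.Monic := by
      have : f = Polynomial.X ^ 2 + (Polynomial.C (-(a 0 0 + a 1 1)) * Polynomial.X +
        Polynomial.C (a 0 0 * a 1 1 - a 0 1 * a 1 0)) := by
        simp only [f, map_neg]; ring
      rw [this]
      refine Polynomial.monic_X_pow_add ?_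
      exact Polynomial.degree_linear_lt
    obtain ⟨lam, h1, h2⟩ := HenselianRing.is_henselian (I := maximalIdeal A) f hf 1 (by
        simp only [f, Polynomial.eval_add, Polynomial.eval_sub, Polynomial.eval_mul,
          Polynomial.eval_pow, Polynomial.eval_X, Polynomial.eval_C]
        have : (1 : A) ^ 2 - (a 0 0 + a 1 1) * 1 + (a 0 0 * a 1 1 - a 0 1 * a 1 0) =
          (a 0 0 - 1) * (a 1 1 - 1) - a 1 0 * a 0 1 := by ring
        rw [this]
        exact Ideal.sub_mem _ (Ideal.mul_mem_right _ _ ha00) (Ideal.mul_mem_left _ _ ha01)) (by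
        have h3 : IsUnit ((Polynomial.derivative f).eval 1) := by
          apply isUnit_of_sub_one_mem
          simp only [f, Polynomial.derivative_add, Polynomial.derivative_sub,
            Polynomial.derivative_mul, Polynomial.derivative_C, Polynomial.derivative_X_pow,
            Polynomial.derivative_X, Polynomial.eval_add, Polynomial.eval_sub,
            Polynomial.eval_mul, Polynomial.eval_pow, Polynomial.eval_X, Polynomial.eval_C,
            Polynomial.eval_zero, Polynomial.eval_one]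
          have : ((2 : ℕ) : A) * 1 ^ (2 - 1) - (0 * 1 + (a 0 0 + a 1 1) * 1) + 0 - 1 =
            - (a 0 0 - 1) - a 1 1 := by push_cast; ring
          rw [this]
          exact Ideal.sub_mem _ (neg_mem ha00) ha11
        exact h3.map _)
    refine ⟨lam, ?_, h2⟩
    have h4 := h1
    rw [Polynomial.IsRoot.def] at h4
    simpa only [f, Polynomial.eval_add, Polynomial.eval_sub, Polynomial.eval_mul,
          Polynomial.eval_pow, Polynomial.eval_X, Polynomial.eval_C] using h4
  -- the eigenvector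
  set mu := a 0 0 + a 1 1 - lam with hmu
  have hmu1 : mu ∈ maximalIdeal A := by
    have : mu = (a 0 0 - 1) + a 1 1 - (lam - 1) := by rw [hmu]; ring
    rw [this]
    exact Ideal.sub_mem _ (Ideal.add_mem _ ha00 ha11) hlam1
  set v0 := a 0 0 - mu with hv0
  set v1 := a 1 0 with hv1
  have hv0' : v0 - 1 ∈ maximalIdeal A := by
    rw [hv0, sub_right_comm]; exact Ideal.sub_mem _ ha00 hmu1
  set w0 := c 0 0 * v0 + c 0 1 * v1 with hw0
  set w1 := c 1 0 * v0 + c 1 1 * v1 with hw1
  have hw0' : w0 ∈ maximalIdeal A :=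
    Ideal.add_mem _ (Ideal.mul_mem_right _ _ hc00) (Ideal.mul_mem_left _ _ ha10)
  have hw1' : w1 - 1 ∈ maximalIdeal A := by
    have : w1 - 1 = (c 1 0 - 1) * v0 + (v0 - 1) + c 1 1 * v1 := by rw [hw1]; ring
    rw [this]
    exact Ideal.add_mem _ (Ideal.add_mem _ (Ideal.mul_mem_right _ _ hc10) hv0')
      (Ideal.mul_mem_left _ _ ha10)
  let Q : Matrix (Fin 2) (Fin 2) A := !![v0, w0; v1, w1]
  have hdet : IsUnit Q.det := by
    apply isUnit_of_sub_one_mem
    have : Q.det - 1 = (v0 - 1) * w1 + (w1 - 1) - v1 * w0 := by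
      simp only [Q, det_fin_two_of]; ring
    rw [this]
    exact Ideal.sub_mem _ (Ideal.add_mem _ (Ideal.mul_mem_right _ _ hv0') hw1')
      (Ideal.mul_mem_left _ _ hw0')
  have hQQ : Q * Q⁻¹ = 1 := mul_nonsing_inv _ hdet
  have hQQ' : Q⁻¹ * Q = 1 := nonsing_inv_mul _ hdet
  have hQ1 : ∀ i j, Q i j - (1 : Matrix (Fin 2) (Fin 2) A) i j ∈ maximalIdeal A := by
    intro i j
    fin_cases i <;> fin_cases j
    · simpa [Q] using hv0'
    · simpa [Q] using hw0'
    · simpa [Q] using ha10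
    · simpa [Q] using hw1'
  -- entries of the difference
  have hmulmem : ∀ (X Y : Matrix (Fin 2) (Fin 2) A), (∀ i j, X i j ∈ maximalIdeal A) →
      ∀ i j, (X * Y) i j ∈ maximalIdeal A := by
    intro X Y hX i j
    rw [mul_apply]
    exact Ideal.sum_mem _ fun l _ => Ideal.mul_mem_right _ _ (hX i l)
  have hmulmem' : ∀ (X Y : Matrix (Fin 2) (Fin 2) A), (∀ i j, Y i j ∈ maximalIdeal A) →
      ∀ i j, (X * Y) i j ∈ maximalIdeal A := by
    intro X Y hY i j
    rw [mul_apply]
    exact Ideal.sum_mem _ fun l _ => Ideal.mul_mem_left _ _ (hY l j)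
  let T' : G →* Matrix (Fin 2) (Fin 2) A :=
    { toFun := fun g => Q⁻¹ * T g * Q
      map_one' := by rw [map_one, mul_one, hQQ']
      map_mul' := fun g h => by
        rw [map_mul]
        calc Q⁻¹ * (T g * T h) * Q = Q⁻¹ * T g * 1 * T h * Q := by
              simp only [mul_one, mul_assoc]
          _ = Q⁻¹ * T g * (Q * Q⁻¹) * T h * Q := by rw [hQQ]
          _ = _ := by simp only [mul_assoc] }
  have hT' : ∀ g, T' g = Q⁻¹ * T g * Q := fun g => rfl
  have hconj : ∀ g, Q * T' g = T g * Q := by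
    intro g
    rw [hT', ← mul_assoc, ← mul_assoc, hQQ, one_mul]
  have hga := gsum_conj F.α T' T Q Q hconj
  have hgb := gsum_conj F.β T' T Q Q hconj
  have hga' : gsum F.α T' = Q⁻¹ * (a * Q) := by
    rw [← hga, ← mul_assoc, hQQ', one_mul]
  have hgb' : gsum F.β T' = Q⁻¹ * (c * Q) := by
    rw [← hgb, ← mul_assoc, hQQ', one_mul]
  -- first columns
  have hav : ∀ i, (a * Q) i 0 = lam * Q i 0 := by
    intro i
    rw [mul_apply, Fin.sum_univ_two]
    fin_cases i
    · simp only [Q, Fin.zero_eta, of_apply, cons_val', cons_val_zero, cons_val_fin_one,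
        cons_val_one]
      rw [hv0, hmu]
      linear_combination (-1 : A) * hlam
    · simp only [Q, Fin.mk_one, of_apply, cons_val', cons_val_zero, cons_val_fin_one,
        cons_val_one]
      rw [hv0, hmu]
      ring
  have hcv : ∀ i, (c * Q) i 0 = Q i 1 := by
    intro i
    rw [mul_apply, Fin.sum_univ_two]
    fin_cases i
    · simp [Q, hw0]
    · simp [Q, hw1]
  refine ⟨T', Q, Q⁻¹, ⟨?_, ?_, ?_, ?_⟩, hQQ, hQQ', hT'⟩
  · intro g i j
    have h1 : T' g i j - T g i j ∈ maximalIdeal A := by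
      have h2 : T' g - T g = Q⁻¹ * (T g * (Q - 1) - (Q - 1) * T g) := by
        rw [hT', mul_sub, sub_mul, mul_sub, one_mul, mul_sub Q⁻¹ (Q * T g), ← mul_assoc Q⁻¹ Q,
          hQQ', one_mul, mul_one, mul_assoc]
        rw [mul_sub]
        abel
      rw [← Matrix.sub_apply, h2]
      refine hmulmem' _ _ (fun i j => ?_) i j
      rw [Matrix.sub_apply]
      refine Ideal.sub_mem _ (hmulmem' _ _ (fun i j => ?_) i j) (hmulmem _ _ (fun i j => ?_) i j)
      · rw [Matrix.sub_apply]; exact hQ1 i j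
      · rw [Matrix.sub_apply]; exact hQ1 i j
    have := Ideal.add_mem _ h1 (hT g i j)
    rwa [sub_add_sub_cancel] at this
  · rw [hga', mul_apply, Fin.sum_univ_two, hav, hav]
    have h2 := congrFun (congrFun hQQ' 1) 0
    rw [mul_apply, Fin.sum_univ_two, one_apply_ne (by decide)] at h2
    linear_combination lam * h2
  · rw [hgb', mul_apply, Fin.sum_univ_two, hcv, hcv]
    have h2 := congrFun (congrFun hQQ' 0) 1
    rw [mul_apply, Fin.sum_univ_two, one_apply_ne (by decide)] at h2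
    exact h2
  · rw [hgb', mul_apply, Fin.sum_univ_two, hcv, hcv]
    have h2 := congrFun (congrFun hQQ' 1) 1
    rw [mul_apply, Fin.sum_univ_two, one_apply_eq] at h2
    exact h2

end

end Fermat.Agent.DefRing
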