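import Fermat.Prelude.Def_GaloisRep_DeformationCondition
import Fermat.Agent.DefRing.MatrixCanon

set_option autoImplicit false
set_option maxHeartbeats 400000

namespace Fermat.Agent.DefRing

open Matrix IsLocalRing
open scoped TensorProduct

/-- the absolute Galois group of `ℚ` -/
abbrev GQ : Type := AlgebraicClosure ℚ ≃ₐ[ℚ] AlgebraicClosure ℚ

/-- adic continuity of a matrix valued function -/
def MatCont {A : Type} [CommRing A] [IsLocalRing A] (T : GQ → Matrix (Fin 2) (Fin 2) A) : Prop :=
  ∀ n : ℕ, ∃ L : IntermediateField ℚ (AlgebraicClosure ℚ), FiniteDimensional ℚ L ∧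
    ∀ σ : GQ, (∀ x ∈ L, σ x = x) →
      ∀ i j, T σ i j - (1 : Matrix (Fin 2) (Fin 2) A) i j ∈ maximalIdeal A ^ n

section

variable {A : Type} [CommRing A] [IsLocalRing A]

theorem mem_smul_top_pi (I : Ideal A) (v : Fin 2 → A) :
    v ∈ I • (⊤ : Submodule A (Fin 2 → A)) ↔ ∀ i, v i ∈ I := by
  constructor
  · intro h i
    have h1 : (I • (⊤ : Submodule A (Fin 2 → A))).map (LinearMap.proj (R := A) (φ := fun _ => A) i)
        ≤ I := by
      rw [Submodule.map_smul'', smul_eq_mul]
      exact Ideal.mul_le_left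
    exact h1 (Submodule.mem_map_of_mem (f := LinearMap.proj (R := A) (φ := fun _ => A) i) h)
  · intro h
    have : v = ∑ i, v i • (Pi.single i 1 : Fin 2 → A) := by
      funext j
      simp [Finset.sum_apply, Pi.single_apply]
    rw [this]
    exact Submodule.sum_mem _ fun i _ => Submodule.smul_mem_smul (h i) Submodule.mem_top

/-- The Galois representation attached to a matrix representation. -/
noncomputable def matRep (T : GQ →* Matrix (Fin 2) (Fin 2) A) (hT : MatCont T) :
    GaloisRepAdic A where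
  V := Fin 2 → A
  finrank_eq := by simp
  ρ := { toFun := fun σ => Matrix.toLin' (T σ)
         map_one' := by rw [map_one, Matrix.toLin'_one]; rfl
         map_mul' := fun σ τ => by rw [map_mul, Matrix.toLin'_mul]; rfl }
  isAdicContinuous := by
    intro n
    obtain ⟨L, hL, h⟩ := hT n
    refine ⟨L, hL, fun σ hσ v => ?_⟩
    rw [mem_smul_top_pi]
    intro i
    change (T σ *ᵥ v) i - v i ∈ _
    have h1 : (T σ *ᵥ v) i - v i = ((T σ - 1) *ᵥ v) i := by
      rw [sub_mulVec, one_mulVec, Pi.sub_apply]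
    rw [h1, mulVec, dotProduct]
    exact Ideal.sum_mem _ fun j _ => Ideal.mul_mem_right _ _ (h σ hσ i j)

theorem matRep_apply (T : GQ →* Matrix (Fin 2) (Fin 2) A) (hT : MatCont T) (σ : GQ)
    (v : Fin 2 → A) : (matRep T hT).ρ σ v = T σ *ᵥ v := rfl

theorem matRep_isEquiv_of_conj {T T' : GQ →* Matrix (Fin 2) (Fin 2) A} (hT : MatCont T)
    (hT' : MatCont T') (Q Q' : Matrix (Fin 2) (Fin 2) A) (hQ : Q * Q' = 1) (hQ' : Q' * Q = 1)
    (h : ∀ g, Q * T g = T' g * Q) : (matRep T hT).IsEquiv (matRep T' hT') :=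
  ⟨{ toLinearEquiv :=
      (LinearEquiv.ofLinearMap (Matrix.toLin' Q) (Matrix.toLin' Q')
        (by rw [← Matrix.toLin'_mul, hQ, Matrix.toLin'_one])
        (by rw [← Matrix.toLin'_mul, hQ', Matrix.toLin'_one]) :
        (Fin 2 → A) ≃ₗ[A] (Fin 2 → A))
     map_apply := fun σ x => by
      change Q *ᵥ (T σ *ᵥ x) = T' σ *ᵥ (Q *ᵥ x)
      rw [mulVec_mulVec, mulVec_mulVec, h] }⟩

theorem conj_of_matRep_isEquiv {T T' : GQ →* Matrix (Fin 2) (Fin 2) A} {hT : MatCont T}
    {hT' : MatCont T'} (h : (matRep T hT).IsEquiv (matRep T' hT')) :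
    ∃ Q Q' : Matrix (Fin 2) (Fin 2) A, Q * Q' = 1 ∧ ∀ g, Q * T g = T' g * Q := by
  obtain ⟨e⟩ := h
  let e' : (Fin 2 → A) ≃ₗ[A] (Fin 2 → A) := e.toLinearEquiv
  refine ⟨LinearMap.toMatrix' e'.toLinearMap, LinearMap.toMatrix' e'.symm.toLinearMap, ?_, ?_⟩
  · rw [← LinearMap.toMatrix'_comp, LinearEquiv.comp_symm, LinearMap.toMatrix'_id]
  · intro g
    have h1 : e'.toLinearMap.comp (Matrix.toLin' (T g)) =
        (Matrix.toLin' (T' g)).comp e'.toLinearMap := by
      apply LinearMap.ext
      intro x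
      exact e.map_apply g x
    have h2 := congrArg LinearMap.toMatrix' h1
    rwa [LinearMap.toMatrix'_comp, LinearMap.toMatrix'_comp, LinearMap.toMatrix'_toLin',
      LinearMap.toMatrix'_toLin'] at h2

theorem MatCont.conj {T T' : GQ → Matrix (Fin 2) (Fin 2) A} (hT : MatCont T)
    (Q Q' : Matrix (Fin 2) (Fin 2) A) (hQ' : Q' * Q = 1) (h : ∀ g, T' g = Q' * T g * Q) :
    MatCont T' := by
  intro n
  obtain ⟨L, hL, h1⟩ := hT n
  refine ⟨L, hL, fun σ hσ i j => ?_⟩
  have h2 : T' σ - 1 = Q' * (T σ - 1) * Q := by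
    rw [h, mul_sub, sub_mul, mul_one, hQ']
  rw [← Matrix.sub_apply, h2, mul_apply]
  refine Ideal.sum_mem _ fun l _ => Ideal.mul_mem_right _ _ ?_
  rw [mul_apply]
  exact Ideal.sum_mem _ fun l' _ => Ideal.mul_mem_left _ _ (h1 σ hσ l' l)

/-- pushing forward a matrix representation -/
noncomputable def mapT {B : Type} [CommRing B] (φ : A →+* B)
    (T : GQ →* Matrix (Fin 2) (Fin 2) A) : GQ →* Matrix (Fin 2) (Fin 2) B :=
  (φ.mapMatrix (m := Fin 2)).toMonoidHom.comp T

omit [IsLocalRing A] in
theorem mapT_apply {B : Type} [CommRing B] (φ : A →+* B)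
    (T : GQ →* Matrix (Fin 2) (Fin 2) A) (g : GQ) (i j : Fin 2) :
    mapT φ T g i j = φ (T g i j) := rfl

theorem MatCont.map {B : Type} [CommRing B] [IsLocalRing B] (φ : A →+* B) (hφ : IsLocalHom φ)
    {T : GQ →* Matrix (Fin 2) (Fin 2) A} (hT : MatCont T) : MatCont (mapT φ T) := by
  intro n
  obtain ⟨L, hL, h1⟩ := hT n
  refine ⟨L, hL, fun σ hσ i j => ?_⟩
  have h2 : mapT φ T σ i j - (1 : Matrix (Fin 2) (Fin 2) B) i j =
      φ (T σ i j - (1 : Matrix (Fin 2) (Fin 2) A) i j) := by
    rw [mapT_apply, map_sub]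
    congr 1
    rw [one_apply, one_apply, apply_ite φ, map_one, map_zero]
  rw [h2]
  have hmap : (maximalIdeal A ^ n).map φ ≤ maximalIdeal B ^ n := by
    rw [Ideal.map_pow]
    exact Ideal.pow_right_mono (Ideal.map_le_iff_le_comap.mpr fun a ha =>
      Ideal.mem_comap.mpr (haveI := hφ; map_nonunit φ a ha)) n
  exact hmap (Ideal.mem_map_of_mem φ (h1 σ hσ i j))

theorem matRep_baseChangeAlong {B : Type} [CommRing B] [IsLocalRing B] (φ : A →+* B)
    (hφ : IsLocalHom φ) {T : GQ →* Matrix (Fin 2) (Fin 2) A} (hT : MatCont T) :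
    ((matRep T hT).baseChangeAlong φ hφ).IsEquiv (matRep (mapT φ T) (hT.map φ hφ)) := by
  letI : Algebra A B := φ.toAlgebra
  have key : ∀ (σ : GQ) (x : B ⊗[A] (Fin 2 → A)), TensorProduct.piScalarRight A B B (Fin 2)
      ((Matrix.toLin' (T σ)).baseChange B x) =
        (mapT φ T σ) *ᵥ (TensorProduct.piScalarRight A B B (Fin 2) x) := by
    intro σ x
    induction x using TensorProduct.induction_on with
    | zero => simp only [map_zero, mulVec_zero]
    | tmul b v =>
      rw [LinearMap.baseChange_tmul, TensorProduct.piScalarRight_apply,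
        TensorProduct.piScalarRight_apply, TensorProduct.piScalarRightHom_tmul,
        TensorProduct.piScalarRightHom_tmul]
      funext j
      rw [Matrix.toLin'_apply, mulVec, dotProduct, mulVec, dotProduct, Finset.sum_smul]
      refine Finset.sum_congr rfl fun i _ => ?_
      rw [mapT_apply, Algebra.smul_def, Algebra.smul_def, map_mul, mul_assoc]
      rfl
    | add x y hx hy => simp only [map_add, mulVec_add, hx, hy]
  exact ⟨{ toLinearEquiv := TensorProduct.piScalarRight A B B (Fin 2)
           map_apply := fun σ x => key σ x }⟩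

end

section Residual

variable {A : Type} [CommRing A] [IsLocalRing A] {k : Type} [Field k]
  (ρbar : ResidualGaloisRep k) (b : Module.Basis (Fin 2) k ρbar.V) (ψ : k →+* ResidueField A)

/-- matrices of the residual representation -/
noncomputable def resMat (g : GQ) : Matrix (Fin 2) (Fin 2) k := LinearMap.toMatrix b b (ρbar.ρ g)

/-- matrices of the residual representation, as a monoid hom -/
noncomputable def resMatHom : GQ →* Matrix (Fin 2) (Fin 2) k where
  toFun := resMat ρbar b
  map_one' := by rw [resMat, map_one, Module.End.one_eq_id, LinearMap.toMatrix_id]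
  map_mul' g h := by
    rw [resMat, map_mul, Module.End.mul_eq_comp, LinearMap.toMatrix_comp b b b]; rfl

theorem rho_basis (g : GQ) (j : Fin 2) :
    ρbar.ρ g (b j) = ∑ i, resMat ρbar b g i j • b i := by
  rw [resMat, ← b.sum_repr (ρbar.ρ g (b j))]
  simp [LinearMap.toMatrix_apply]

theorem matRep_residual_isEquiv (T : GQ →* Matrix (Fin 2) (Fin 2) A) (hT : MatCont T)
    (h : ∀ g i j, residue A (T g i j) = ψ (resMat ρbar b g i j)) :
    (matRep T hT).residual.IsEquiv (ρbar.baseChangeAlong ψ) := by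
  letI : Algebra k (ResidueField A) := ψ.toAlgebra
  let b1 : Module.Basis (Fin 2) (ResidueField A) (ResidueField A ⊗[A] (Fin 2 → A)) :=
    (Pi.basisFun A (Fin 2)).baseChange (ResidueField A)
  let b2 : Module.Basis (Fin 2) (ResidueField A) (ResidueField A ⊗[k] ρbar.V) :=
    b.baseChange (ResidueField A)
  let e := b1.equiv b2 (Equiv.refl _)
  refine ⟨{ toLinearEquiv := e, map_apply := fun σ x => ?_ }⟩
  change e ((Matrix.toLin' (T σ)).baseChange (ResidueField A) x) =
    (ρbar.ρ σ).baseChange (ResidueField A) (e x)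
  have hlin : e.toLinearMap ∘ₗ ((Matrix.toLin' (T σ)).baseChange (ResidueField A)) =
      ((ρbar.ρ σ).baseChange (ResidueField A)) ∘ₗ e.toLinearMap := by
    refine b1.ext fun j => ?_
    have he : ∀ i, e (b1 i) = b2 i := fun i => by simp [e]
    rw [LinearMap.comp_apply, LinearMap.comp_apply, LinearEquiv.coe_coe, he]
    have h1 : (Matrix.toLin' (T σ)).baseChange (ResidueField A) (b1 j) =
        ∑ i, residue A (T σ i j) • b1 i := by
      rw [Module.Basis.baseChange_apply, LinearMap.baseChange_tmul]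
      have : Matrix.toLin' (T σ) (Pi.basisFun A (Fin 2) j) =
          ∑ i, T σ i j • Pi.basisFun A (Fin 2) i := by
        funext l
        simp [Matrix.mulVec_single, Pi.single_apply]
      rw [this, TensorProduct.tmul_sum]
      refine Finset.sum_congr rfl fun i _ => ?_
      rw [Module.Basis.baseChange_apply, TensorProduct.tmul_smul, TensorProduct.smul_tmul',
        TensorProduct.smul_tmul', Algebra.smul_def, smul_eq_mul]
      rfl
    have h2 : (ρbar.ρ σ).baseChange (ResidueField A) (b2 j) =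
        ∑ i, ψ (resMat ρbar b σ i j) • b2 i := by
      rw [Module.Basis.baseChange_apply, LinearMap.baseChange_tmul, rho_basis,
        TensorProduct.tmul_sum]
      refine Finset.sum_congr rfl fun i _ => ?_
      rw [Module.Basis.baseChange_apply, TensorProduct.tmul_smul, TensorProduct.smul_tmul',
        TensorProduct.smul_tmul', Algebra.smul_def, smul_eq_mul]
      rfl
    rw [h1, h2, map_sum]
    refine Finset.sum_congr rfl fun i _ => ?_
    rw [map_smul, h]
    congr 1
    exact he i
  exact LinearMap.congr_fun hlin x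

theorem exists_matRep (ρ : GaloisRepAdic A)
    (h : ρ.residual.IsEquiv (ρbar.baseChangeAlong ψ)) :
    ∃ (T : GQ →* Matrix (Fin 2) (Fin 2) A) (hT : MatCont T),
      (∀ g i j, residue A (T g i j) = ψ (resMat ρbar b g i j)) ∧ ρ.IsEquiv (matRep T hT) := by
  letI : Algebra k (ResidueField A) := ψ.toAlgebra
  obtain ⟨e⟩ := h
  let e' : (ResidueField A ⊗[A] ρ.V) ≃ₗ[ResidueField A] (ResidueField A ⊗[k] ρbar.V) :=
    e.toLinearEquiv
  have he' : ∀ (σ : GQ) (x : ResidueField A ⊗[A] ρ.V),
      e' ((ρ.ρ σ).baseChange (ResidueField A) x) =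
        (ρbar.ρ σ).baseChange (ResidueField A) (e' x) := e.map_apply
  let b2 : Module.Basis (Fin 2) (ResidueField A) (ResidueField A ⊗[k] ρbar.V) :=
    b.baseChange (ResidueField A)
  let b1 : Module.Basis (Fin 2) (ResidueField A) (ResidueField A ⊗[A] ρ.V) := b2.map e'.symm
  have hsurj : ∀ y : ResidueField A ⊗[A] ρ.V, ∃ w : ρ.V, (1 : ResidueField A) ⊗ₜ[A] w = y := by
    intro y
    induction y using TensorProduct.induction_on with
    | zero => exact ⟨0, TensorProduct.tmul_zero _ _⟩
    | tmul c v =>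
      obtain ⟨a, rfl⟩ := residue_surjective c
      refine ⟨a • v, ?_⟩
      rw [TensorProduct.tmul_smul, TensorProduct.smul_tmul', Algebra.smul_def, mul_one]
      rfl
    | add x y hx hy =>
      obtain ⟨w, rfl⟩ := hx
      obtain ⟨w', rfl⟩ := hy
      exact ⟨w + w', TensorProduct.tmul_add _ _ _⟩
  choose w hw using fun i => hsurj (b1 i)
  have hspan : Submodule.span A (Set.range w) = ⊤ :=
    IsLocalRing.span_eq_top_of_tmul_eq_basis w b1 hw
  let bw : Module.Basis (Fin 2) A ρ.V :=
    basisOfTopLeSpanOfCardEqFinrank w hspan.ge (by rw [ρ.finrank_eq, Fintype.card_fin])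
  have hbw : ∀ i, bw i = w i := fun i => by simp [bw]
  let T : GQ →* Matrix (Fin 2) (Fin 2) A :=
    { toFun := fun g => LinearMap.toMatrix bw bw (ρ.ρ g)
      map_one' := by rw [map_one, Module.End.one_eq_id, LinearMap.toMatrix_id]
      map_mul' := fun g h => by
        rw [map_mul, Module.End.mul_eq_comp, LinearMap.toMatrix_comp bw bw bw] }
  have hTb : ∀ g j, ρ.ρ g (w j) = ∑ i, T g i j • w i := by
    intro g j
    rw [← bw.sum_repr (ρ.ρ g (w j))]
    refine Finset.sum_congr rfl fun i _ => ?_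
    rw [hbw]
    congr 1
    change _ = LinearMap.toMatrix bw bw (ρ.ρ g) i j
    rw [LinearMap.toMatrix_apply, hbw]
  have hTc : MatCont T := by
    intro n
    obtain ⟨L, hL, h1⟩ := ρ.isAdicContinuous n
    refine ⟨L, hL, fun σ hσ i j => ?_⟩
    have h2 := h1 σ hσ (bw j)
    have h3 : bw.coord i (ρ.ρ σ (bw j) - bw j) =
        T σ i j - (1 : Matrix (Fin 2) (Fin 2) A) i j := by
      rw [map_sub, Module.Basis.coord_apply, Module.Basis.coord_apply]
      change _ = LinearMap.toMatrix bw bw (ρ.ρ σ) i j - _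
      rw [LinearMap.toMatrix_apply, bw.repr_self, one_apply, Finsupp.single_apply]
      congr 1
      by_cases hij : i = j
      · rw [if_pos hij, if_pos hij.symm]
      · rw [if_neg hij, if_neg (Ne.symm hij)]
    rw [← h3]
    have h4 : ((maximalIdeal A ^ n) • (⊤ : Submodule A ρ.V)).map (bw.coord i) ≤
        maximalIdeal A ^ n := by
      rw [Submodule.map_smul'', smul_eq_mul]
      exact Ideal.mul_le_left
    exact h4 (Submodule.mem_map_of_mem (f := bw.coord i) h2)
  refine ⟨T, hTc, ?_, ?_⟩
  · intro g i j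
    have h1 : e' ((1 : ResidueField A) ⊗ₜ[A] (ρ.ρ g (w j))) = ∑ i, residue A (T g i j) • b2 i := by
      rw [hTb, TensorProduct.tmul_sum, map_sum]
      refine Finset.sum_congr rfl fun i _ => ?_
      have : (1 : ResidueField A) ⊗ₜ[A] (T g i j • w i) = residue A (T g i j) • b1 i := by
        rw [← hw, TensorProduct.tmul_smul, TensorProduct.smul_tmul', TensorProduct.smul_tmul',
          Algebra.smul_def, smul_eq_mul]
        rfl
      rw [this, map_smul]
      congr 1
      simp [b1]
    have h2 : e' ((1 : ResidueField A) ⊗ₜ[A] (ρ.ρ g (w j))) =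
        ∑ i, ψ (resMat ρbar b g i j) • b2 i := by
      have : (1 : ResidueField A) ⊗ₜ[A] (ρ.ρ g (w j)) =
          (ρ.ρ g).baseChange (ResidueField A) (b1 j) := by
        rw [← hw, LinearMap.baseChange_tmul]
      rw [this, he']
      have h3 : e' (b1 j) = b2 j := by simp [b1]
      rw [h3, Module.Basis.baseChange_apply, LinearMap.baseChange_tmul, rho_basis,
        TensorProduct.tmul_sum]
      refine Finset.sum_congr rfl fun i _ => ?_
      rw [Module.Basis.baseChange_apply, TensorProduct.tmul_smul, TensorProduct.smul_tmul',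
        TensorProduct.smul_tmul', Algebra.smul_def, smul_eq_mul]
      rfl
    have h3 := h1.symm.trans h2
    have h4 := congrArg (fun z => b2.repr z i) h3
    fin_cases i <;> simpa [Finsupp.single_apply] using h4
  · refine ⟨{ toLinearEquiv := bw.equivFun, map_apply := fun σ x => ?_ }⟩
    change bw.equivFun (ρ.ρ σ x) = T σ *ᵥ (bw.equivFun x)
    change _ = (LinearMap.toMatrix bw bw (ρ.ρ σ)) *ᵥ (bw.equivFun x)
    have := LinearMap.toMatrix_mulVec_repr bw bw (ρ.ρ σ) x
    exact this.symm

end Residual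

end Fermat.Agent.DefRing
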