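import Mathlib

set_option autoImplicit false

namespace Fermat.Agent.DefRing

open Matrix

section

variable {K : Type} [Field K] [IsAlgClosed K] {G : Type} [Group G]
  (M : G →* Matrix (Fin 2) (Fin 2) K)
  (hirr : ∀ W : Submodule K (Fin 2 → K), (∀ g, ∀ x ∈ W, (M g) *ᵥ x ∈ W) → W = ⊥ ∨ W = ⊤)

omit [IsAlgClosed K] in
theorem exists_vecMulVec_of_det_eq_zero (C : Matrix (Fin 2) (Fin 2) K) (h : C.det = 0) :
    ∃ w φ : Fin 2 → K, C = vecMulVec w φ := by
  rw [det_fin_two] at h
  by_cases h00 : C 0 0 = 0
  · by_cases h01 : C 0 1 = 0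
    · refine ⟨![0, 1], ![C 1 0, C 1 1], ?_⟩
      ext i j
      fin_cases i <;> fin_cases j <;> simp [vecMulVec_apply, h00, h01]
    · have h10 : C 1 0 = 0 := by
        rw [h00, zero_mul, zero_sub, neg_eq_zero] at h
        exact (mul_eq_zero.mp h).resolve_left h01
      refine ⟨![1, C 1 1 / C 0 1], ![0, C 0 1], ?_⟩
      ext i j
      fin_cases i <;> fin_cases j <;> simp [vecMulVec_apply, h00, h01, h10]
  · refine ⟨![1, C 1 0 / C 0 0], ![C 0 0, C 0 1], ?_⟩
    ext i j
    fin_cases i <;> fin_cases j <;> simp [vecMulVec_apply, h00]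
    field_simp
    linear_combination h

include hirr in
omit [IsAlgClosed K] in
theorem eq_zero_of_trace_of_det_eq_zero (C : Matrix (Fin 2) (Fin 2) K) (h : C.det = 0)
    (htr : ∀ g, (C * M g).trace = 0) : C = 0 := by
  obtain ⟨w, φ, rfl⟩ := exists_vecMulVec_of_det_eq_zero C h
  have htr' : ∀ g, φ ⬝ᵥ (M g *ᵥ w) = 0 := by
    intro g
    have := htr g
    rw [vecMulVec_mul, trace_vecMulVec] at this
    rw [dotProduct_mulVec, dotProduct_comm]
    exact this
  let U : Submodule K (Fin 2 → K) :=
    { carrier := {y | ∀ g, φ ⬝ᵥ (M g *ᵥ y) = 0}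
      add_mem' := by
        intro a b ha hb g
        rw [mulVec_add, dotProduct_add, ha g, hb g, add_zero]
      zero_mem' := by intro g; rw [mulVec_zero, dotProduct_zero]
      smul_mem' := by
        intro c a ha g
        rw [mulVec_smul, dotProduct_smul, ha g, smul_zero] }
  rcases hirr U (by
    intro g y hy h
    rw [mulVec_mulVec, ← map_mul]
    exact hy _) with hU | hU
  · have hw : w ∈ U := htr'
    rw [hU, Submodule.mem_bot] at hw
    rw [hw, zero_vecMulVec]
  · have hφ : φ = 0 := by
      funext i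
      have h1 : Pi.single i 1 ∈ U := by rw [hU]; trivial
      have h2 := h1 1
      rw [map_one, one_mulVec, dotProduct_single, mul_one] at h2
      exact h2
    rw [hφ, vecMulVec_zero]

include hirr in
theorem eq_zero_of_trace (C : Matrix (Fin 2) (Fin 2) K)
    (htr : ∀ g, (C * M g).trace = 0) : C = 0 := by
  by_contra hC
  have hdet : C.det ≠ 0 := fun h => hC (eq_zero_of_trace_of_det_eq_zero M hirr C h htr)
  have hscal : ∀ g, ∃ t : K, M g = scalar (Fin 2) t := by
    intro g
    obtain ⟨t, ht⟩ := IsAlgClosed.exists_root (M g).charpoly (by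
      rw [charpoly_degree_eq_dim]; norm_num)
    rw [Polynomial.IsRoot.def, eval_charpoly] at ht
    refine ⟨t, ?_⟩
    have h1 : C * (scalar (Fin 2) t - M g) = 0 := by
      refine eq_zero_of_trace_of_det_eq_zero M hirr _ (by rw [det_mul, ht, mul_zero]) fun h => ?_
      rw [mul_sub, sub_mul, trace_sub, mul_assoc C (M g), ← map_mul, htr, sub_zero]
      have : C * scalar (Fin 2) t * M h = t • (C * M h) := by
        rw [scalar_apply, ← smul_one_eq_diagonal, mul_smul_comm, mul_one, smul_mul_assoc]
      rw [this, trace_smul, htr, smul_zero]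
    have h2 : IsUnit C := (isUnit_iff_isUnit_det C).mpr (isUnit_iff_ne_zero.mpr hdet)
    have h3 := (h2.mul_right_eq_zero).mp h1
    exact (sub_eq_zero.mp h3).symm
  rcases hirr (Submodule.span K {Pi.single 0 1}) (by
    intro g y hy
    obtain ⟨t, ht⟩ := hscal g
    rw [ht, scalar_apply, ← smul_one_eq_diagonal, smul_mulVec, one_mulVec]
    exact Submodule.smul_mem _ _ hy) with h | h
  · rw [Submodule.span_singleton_eq_bot] at h
    have := congrFun h 0
    simp at this
  · have h1 : (Pi.single 1 1 : Fin 2 → K) ∈ Submodule.span K {Pi.single (0 : Fin 2) (1 : K)} := by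
      rw [h]; trivial
    obtain ⟨a, ha⟩ := Submodule.mem_span_singleton.mp h1
    have := congrFun ha 1
    simp at this

end

section

variable {k K : Type} [Field k] [Field K] [Algebra k K] [IsAlgClosed K] {G : Type} [Group G]
  (M : G →* Matrix (Fin 2) (Fin 2) k)
  (hirr : ∀ W : Submodule K (Fin 2 → K),
    (∀ g, ∀ x ∈ W, (M g).map (algebraMap k K) *ᵥ x ∈ W) → W = ⊥ ∨ W = ⊤)

include hirr in
/-- Burnside's theorem for two-dimensional absolutely irreducible representations. -/
theorem span_range_eq_top : Submodule.span k (Set.range M) = ⊤ := by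
  by_contra hne
  obtain ⟨ψ, hψ, hψ2⟩ := Submodule.exists_le_ker_of_lt_top _ (lt_top_iff_ne_top.mpr hne)
  let C : Matrix (Fin 2) (Fin 2) k := fun i j => ψ (Matrix.single j i 1)
  have hC : ∀ X : Matrix (Fin 2) (Fin 2) k, (C * X).trace = ψ X := by
    intro X
    conv_rhs => rw [matrix_eq_sum_single X]
    simp only [map_sum, trace, diag_apply, mul_apply, C]
    rw [Finset.sum_comm]
    refine Finset.sum_congr rfl fun i _ => Finset.sum_congr rfl fun j _ => ?_
    have : Matrix.single i j (X i j) = X i j • Matrix.single i j (1 : k) := by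
      rw [smul_single, smul_eq_mul, mul_one]
    rw [this, map_smul, smul_eq_mul, mul_comm]
  let MK : G →* Matrix (Fin 2) (Fin 2) K :=
    ((algebraMap k K).mapMatrix (m := Fin 2)).toMonoidHom.comp M
  have hMK : ∀ g, MK g = (M g).map (algebraMap k K) := fun g => rfl
  have h0 : C.map (algebraMap k K) = 0 := by
    refine eq_zero_of_trace MK (by simpa only [hMK] using hirr) _ fun g => ?_
    have h1 : ψ (M g) = 0 := hψ2 (Submodule.subset_span ⟨g, rfl⟩)
    have h2 := congrArg (algebraMap k K) ((hC (M g)).trans h1)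
    rw [hMK, ← Matrix.map_mul]
    rw [map_zero] at h2
    rw [← h2, trace, trace, map_sum]
    rfl
  apply hψ
  ext X
  rw [← hC]
  have hC0 : C = 0 := by
    ext i j
    have := congrFun (congrFun h0 i) j
    simpa using this
  rw [hC0, zero_mul, trace_zero]
  simp

include hirr in
theorem exists_finsupp_sum_eq (X : Matrix (Fin 2) (Fin 2) k) :
    ∃ a : G →₀ k, (a.sum fun g c => c • M g) = X := by
  have h : X ∈ Submodule.span k (Set.range M) := by
    rw [span_range_eq_top M hirr]; trivial
  exact Finsupp.mem_span_range_iff_exists_finsupp.mp h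

end

end Fermat.Agent.DefRing
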