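import Fermat.Agent.DefRing.Filtration
import Fermat.Agent.DefRing.Burnside

set_option autoImplicit false
set_option maxHeartbeats 400000

namespace Fermat.Agent.DefRing

open Matrix IsLocalRing GaloisRep
open scoped TensorProduct

section Irr

variable {k : Type} [Field k] (ρbar : ResidualGaloisRep k)
  (b : Module.Basis (Fin 2) k ρbar.V)

theorem matrix_irreducible (habs : ρbar.IsAbsolutelyIrreducible)
    (W : Submodule (AlgebraicClosure k) (Fin 2 → AlgebraicClosure k))
    (hW : ∀ g, ∀ x ∈ W, (resMatHom ρbar b g).map (algebraMap k (AlgebraicClosure k)) *ᵥ x ∈ W) :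
    W = ⊥ ∨ W = ⊤ := by
  let K := AlgebraicClosure k
  let bK : Module.Basis (Fin 2) K (K ⊗[k] ρbar.V) := Algebra.TensorProduct.basis K b
  let e : (K ⊗[k] ρbar.V) ≃ₗ[K] (Fin 2 → K) := bK.equivFun
  have he : ∀ (g : GQ) (x : K ⊗[k] ρbar.V), e ((ρbar.ρ g).baseChange K x) =
      (resMatHom ρbar b g).map (algebraMap k K) *ᵥ (e x) := by
    intro g x
    have h1 := LinearMap.toMatrix_mulVec_repr bK bK ((ρbar.ρ g).baseChange K) x
    have h2 : LinearMap.toMatrix bK bK ((ρbar.ρ g).baseChange K) =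
        (resMatHom ρbar b g).map (algebraMap k K) := LinearMap.toMatrix_baseChange K (ρbar.ρ g) b b
    rw [h2] at h1
    exact h1.symm
  rcases habs (W.comap e.toLinearMap) (fun σ x hx => by
    change e ((ρbar.ρ σ).baseChange K x) ∈ W
    rw [he]
    exact hW σ _ hx) with h | h
  · left
    rw [eq_bot_iff]
    intro x hx
    have h1 : e.symm x ∈ W.comap e.toLinearMap := by
      rw [Submodule.mem_comap]
      simpa using hx
    rw [h, Submodule.mem_bot] at h1
    rw [Submodule.mem_bot]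
    simpa using h1
  · right
    rw [eq_top_iff]
    intro x _
    have h1 : e.symm x ∈ W.comap e.toLinearMap := by rw [h]; trivial
    rw [Submodule.mem_comap] at h1
    simpa using h1

end Irr

section

variable {𝒪 : Type} [CommRing 𝒪] [IsLocalRing 𝒪]
  (ρbar : ResidualGaloisRep (ResidueField 𝒪))
  (b : Module.Basis (Fin 2) (ResidueField 𝒪) ρbar.V)

open Classical in
/-- a set theoretic lift of the residue map, preserving zero -/
noncomputable def lft (y : ResidueField 𝒪) : 𝒪 :=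
  if y = 0 then 0 else Function.surjInv residue_surjective y

theorem residue_lft (y : ResidueField 𝒪) : residue 𝒪 (lft y) = y := by
  unfold lft
  split_ifs with h
  · rw [map_zero, h]
  · exact Function.surjInv_eq residue_surjective y

theorem lft_zero : lft (0 : ResidueField 𝒪) = 0 := by
  simp [lft]

theorem exists_frame (habs : ρbar.IsAbsolutelyIrreducible) :
    ∃ F : FrameDatum 𝒪 GQ, ∀ g i j, residue 𝒪 (F.M g i j) = resMat ρbar b g i j := by
  let M : GQ → Matrix (Fin 2) (Fin 2) 𝒪 := fun g i j => lft (resMat ρbar b g i j)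
  have hM : ∀ g i j, residue 𝒪 (M g i j) = resMat ρbar b g i j := fun g i j => residue_lft _
  have key : ∀ E : Matrix (Fin 2) (Fin 2) 𝒪, ∃ a : GQ →₀ 𝒪,
      ∀ i j, (a.sum fun g c => c • M g) i j - E i j ∈ maximalIdeal 𝒪 := by
    intro E
    obtain ⟨a, ha⟩ := exists_finsupp_sum_eq (k := ResidueField 𝒪)
      (K := AlgebraicClosure (ResidueField 𝒪)) (resMatHom ρbar b)
      (matrix_irreducible ρbar b habs) (E.map (residue 𝒪))
    refine ⟨a.mapRange lft lft_zero, fun i j => ?_⟩
    rw [← IsLocalRing.residue_eq_zero_iff, map_sub, sub_eq_zero]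
    have h1 := congrFun (congrFun ha i) j
    rw [Matrix.map_apply] at h1
    rw [← h1, Finsupp.sum_mapRange_index (by intro g; exact zero_smul _ _), Finsupp.sum,
      Finsupp.sum, Matrix.sum_apply, Matrix.sum_apply, map_sum]
    refine Finset.sum_congr rfl fun g _ => ?_
    rw [Matrix.smul_apply, Matrix.smul_apply, smul_eq_mul, smul_eq_mul, map_mul, hM, residue_lft]
    rfl
  obtain ⟨α, hα⟩ := key !![1, 0; 0, 0]
  obtain ⟨β, hβ⟩ := key !![0, 0; 1, 0]
  exact ⟨⟨M, α, β, hα, hβ⟩, hM⟩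

variable {F : FrameDatum 𝒪 GQ} (hF : ∀ g i j, residue 𝒪 (F.M g i j) = resMat ρbar b g i j)
  {𝒟 : ∀ ⦃A : Type⦄ [CommRing A] [IsLocalRing A] [Algebra 𝒪 A], GaloisRepAdic A → Prop}
  (h𝒟 : GaloisRep.IsDeformationCondition 𝒪 𝒟)
  (hbar : 𝒟 (GaloisRepAdic.ofResidualGaloisRep ρbar))

theorem test_residueField : IsArtinianTestAlgebra 𝒪 (ResidueField 𝒪) := by
  refine ⟨⟨fun c hc => ?_⟩, fun y => ?_, inferInstance⟩
  · by_contra hu
    have h1 : residue 𝒪 c = 0 := (IsLocalRing.residue_eq_zero_iff c).mpr hu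
    have h2 : IsUnit (residue 𝒪 c) := hc
    rw [h1] at h2
    exact not_isUnit_zero h2
  · obtain ⟨z, rfl⟩ := residue_surjective y
    obtain ⟨c, rfl⟩ := residue_surjective z
    exact ⟨c, rfl⟩

theorem mat_kap (g : GQ) (i j : Fin 2) : mat (kap F) g i j = residue 𝒪 (F.M g i j) := by
  simp [mat, kap]

theorem gsum_kap (a : GQ →₀ 𝒪) (i j : Fin 2) : gsum a (mat (kap F)) i j =
    residue 𝒪 ((a.sum fun g c => c • F.M g) i j) := by
  rw [gsum_apply, Finsupp.sum, Finsupp.sum, Matrix.sum_apply, map_sum]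
  refine Finset.sum_congr rfl fun g _ => ?_
  rw [mat_kap, Matrix.smul_apply, smul_eq_mul, map_mul]
  rfl

theorem gsum_kap' (a : GQ →₀ 𝒪) (E : Matrix (Fin 2) (Fin 2) 𝒪)
    (h : ∀ i j, (a.sum fun g c => c • F.M g) i j - E i j ∈ maximalIdeal 𝒪) (i j : Fin 2) :
    gsum a (mat (kap F)) i j = residue 𝒪 (E i j) := by
  rw [gsum_kap, ← sub_eq_zero, ← map_sub, IsLocalRing.residue_eq_zero_iff]
  exact h i j

include hF in
theorem framed_kap : Framed F (kap F) := by
  have hm : ∀ g, mat (kap F) g = resMatHom ρbar b g := by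
    intro g
    ext i j
    rw [mat_kap, hF]
    rfl
  refine ⟨?_, ?_, ?_, ?_, ?_, ?_, ?_⟩
  · rw [hm, map_one]
  · intro g h
    rw [hm, hm, hm, map_mul]
  · intro n
    obtain ⟨L, hL, h⟩ := ρbar.factorsThroughFiniteLevel
    refine ⟨L, hL, fun σ hσ i j => ?_⟩
    have h1 : resMatHom ρbar b σ = 1 := by
      change resMat ρbar b σ = 1
      rw [resMat, h σ hσ, Module.End.one_eq_id, LinearMap.toMatrix_id]
    rw [hm, h1, sub_self]
    exact Ideal.zero_mem _
  · intro g i j
    rw [mat_kap]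
    change residue 𝒪 (F.M g i j) - residue 𝒪 (F.M g i j) ∈ _
    rw [sub_self]
    exact Ideal.zero_mem _
  · rw [gsum_kap' F.α _ F.hα]; simp
  · rw [gsum_kap' F.β _ F.hβ]; simp
  · rw [gsum_kap' F.β _ F.hβ]; simp

include hF h𝒟 hbar in
theorem good_kap : Good F 𝒟 (kap F) := by
  have h := framed_kap ρbar b hF
  refine ⟨h, h𝒟.of_isEquiv test_residueField ?_ hbar⟩
  refine ⟨{ toLinearEquiv := b.equivFun, map_apply := fun σ x => ?_ }⟩
  change b.equivFun (ρbar.ρ σ x) = mat (kap F) σ *ᵥ (b.equivFun x)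
  have h1 := LinearMap.toMatrix_mulVec_repr b b (ρbar.ρ σ) x
  have h2 : mat (kap F) σ = LinearMap.toMatrix b b (ρbar.ρ σ) := by
    ext i j
    rw [mat_kap, hF]
    rfl
  rw [h2]
  exact h1.symm

end

end Fermat.Agent.DefRing
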