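import Fermat.Agent.DefRing.Frame
import Fermat.Prelude.Def_GaloisRep_DeformationRingData

set_option autoImplicit false
set_option maxHeartbeats 800000

namespace Fermat.Agent.DefRing

open Matrix IsLocalRing GaloisRep

section TestQuot

variable {𝒪 : Type} [CommRing 𝒪] [IsLocalRing 𝒪] [Finite (ResidueField 𝒪)]

theorem isLocalRing_quotPow {A : Type} [CommRing A] [IsLocalRing A] {n : ℕ} (hn : n ≠ 0) :
    IsLocalRing (A ⧸ maximalIdeal A ^ n) := by
  haveI : Nontrivial (A ⧸ maximalIdeal A ^ n) := by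
    rw [Ideal.Quotient.nontrivial_iff]
    intro h
    have h1 := Ideal.pow_le_self (I := maximalIdeal A) hn
    rw [h, top_le_iff] at h1
    exact Ideal.IsMaximal.ne_top (inferInstance : (maximalIdeal A).IsMaximal) h1
  exact IsLocalRing.of_surjective' (Ideal.Quotient.mk (maximalIdeal A ^ n))
    Ideal.Quotient.mk_surjective

theorem test_quotPow {A : Type} [CommRing A] [IsLocalRing A] [IsNoetherianRing A] [Algebra 𝒪 A]
    (hloc : IsLocalHom (algebraMap 𝒪 A))
    (hres : Function.Surjective (IsLocalRing.residue A ∘ algebraMap 𝒪 A)) {n : ℕ} (hn : n ≠ 0)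
    [IsLocalRing (A ⧸ maximalIdeal A ^ n)] :
    IsArtinianTestAlgebra 𝒪 (A ⧸ maximalIdeal A ^ n) ∧
      IsLocalHom (Ideal.Quotient.mkₐ 𝒪 (maximalIdeal A ^ n) : A →+* A ⧸ maximalIdeal A ^ n) := by
  have hmk : IsLocalHom (Ideal.Quotient.mk (maximalIdeal A ^ n)) :=
    Function.Surjective.isLocalHom _ Ideal.Quotient.mk_surjective
  have h1 : Function.Surjective (ResidueField.map (algebraMap 𝒪 A)) := by
    intro y
    obtain ⟨c, hc⟩ := hres y
    exact ⟨residue 𝒪 c, by rw [ResidueField.map_residue]; exact hc⟩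
  haveI : Finite (ResidueField A) := Finite.of_surjective _ h1
  haveI : Finite (A ⧸ maximalIdeal A) := this
  haveI h2 : Finite (A ⧸ maximalIdeal A ^ n) :=
    Ideal.finite_quotient_pow (IsNoetherian.noetherian (maximalIdeal A)) n
  refine ⟨⟨⟨fun c hc => ?_⟩, fun y => ?_, inferInstance⟩, hmk⟩
  · have h3 : IsUnit (Ideal.Quotient.mk (maximalIdeal A ^ n) (algebraMap 𝒪 A c)) := hc
    exact (isUnit_map_iff (algebraMap 𝒪 A) c).mp ((isUnit_map_iff _ _).mp h3)
  · obtain ⟨z, rfl⟩ := residue_surjective y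
    obtain ⟨a, rfl⟩ := Ideal.Quotient.mk_surjective z
    obtain ⟨c, hc⟩ := hres (residue A a)
    refine ⟨c, ?_⟩
    rw [Function.comp_apply, ← sub_eq_zero, ← map_sub, IsLocalRing.residue_eq_zero_iff] at hc ⊢
    have h3 := map_nonunit (Ideal.Quotient.mk (maximalIdeal A ^ n)) _ hc
    rw [map_sub] at h3
    exact h3

end TestQuot

section Congr

variable {𝒪 : Type} [CommRing 𝒪] [IsLocalRing 𝒪] {F : FrameDatum 𝒪 GQ}

theorem Framed.rep_congr {A : Type} [CommRing A] [IsLocalRing A] [Algebra 𝒪 A]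
    {u u' : PP 𝒪 →ₐ[𝒪] A} (h : Framed F u) (h' : Framed F u') (huu : u = u') :
    h.rep.IsEquiv h'.rep := by
  subst huu
  exact ⟨GaloisRepAdic.Equiv.refl _⟩

end Congr

section Main

variable {𝒪 : Type} [CommRing 𝒪] [IsDomain 𝒪] [IsDiscreteValuationRing 𝒪]
  [IsAdicComplete (IsLocalRing.maximalIdeal 𝒪) 𝒪] [Finite (IsLocalRing.ResidueField 𝒪)]
  (ρbar : ResidualGaloisRep (IsLocalRing.ResidueField 𝒪))
  (𝒟 : ∀ ⦃A : Type⦄ [CommRing A] [IsLocalRing A] [Algebra 𝒪 A], GaloisRepAdic A → Prop)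
  (habs : ρbar.IsAbsolutelyIrreducible)
  (h𝒟 : GaloisRep.IsDeformationCondition 𝒪 𝒟)
  (hbar : 𝒟 (GaloisRepAdic.ofResidualGaloisRep ρbar))
  (hfin : GaloisRep.TangentFinite 𝒪 ρbar 𝒟)

include habs h𝒟 hbar hfin in
theorem nonempty_data : Nonempty (GaloisRep.DeformationRingData 𝒪 ρbar 𝒟) := by
  let b : Module.Basis (Fin 2) (ResidueField 𝒪) ρbar.V :=
    Module.finBasisOfFinrankEq _ _ ρbar.finrank_eq
  obtain ⟨F, hF⟩ := exists_frame ρbar b habs
  obtain ⟨N, x, hx, hgen⟩ := exists_generators h𝒟 ρbar b hF hfin (IsNoetherian.noetherian _)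
  have hne : (Fam F 𝒟).Nonempty :=
    ⟨_, ker_mem_Fam h𝒟 test_residueField (good_kap ρbar b hF h𝒟 hbar)⟩
  obtain ⟨J, hanti, hJ, hJF, hJgen, hstep, hcof⟩ := exists_filtration h𝒟 hx hgen hne
  haveI := ker_kappa_isMaximal (kap F)
  obtain ⟨R, iR1, iR2, iR3, iR4, iR5, iR6, q, hres, hqs, hqk, hqc⟩ :=
    exists_proRing (𝒪 := 𝒪) (algebraMap_quot_surj (kap F)) hx hJ hanti (fam_le (hJF 1 le_rfl))
      hJgen hstep
  -- compatibility of the `q n`
  have hqc' : ∀ {n n' : ℕ} (h : n ≤ n') (r : R),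
      Ideal.Quotient.factor (hanti h) (q n' r) = q n r := by
    intro n n' h r
    induction n', h using Nat.le_induction with
    | base =>
      obtain ⟨p, hp⟩ := Ideal.Quotient.mk_surjective (q n r)
      rw [← hp, Ideal.Quotient.factor_mk]
    | succ n' h ih =>
      rw [← ih, ← hqc n' r]
      obtain ⟨p, hp⟩ := Ideal.Quotient.mk_surjective (q (n' + 1) r)
      rw [← hp, Ideal.Quotient.factor_mk, Ideal.Quotient.factor_mk, Ideal.Quotient.factor_mk]
  -- the maps `R / m^n → P / J n`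
  let qb : ∀ n, R ⧸ maximalIdeal R ^ n →ₐ[𝒪] PP 𝒪 ⧸ J n := fun n =>
    Ideal.Quotient.liftₐ _ (q n) (fun a ha => by
      rw [← hqk n] at ha
      exact ha)
  have hqb : ∀ n (r : R), qb n (Ideal.Quotient.mk _ r) = q n r := fun n r => rfl
  have hqb1 : ∀ n, Function.Bijective (qb n) := by
    intro n
    constructor
    · rw [injective_iff_map_eq_zero]
      intro y hy
      obtain ⟨r, rfl⟩ := Ideal.Quotient.mk_surjective y
      rw [hqb] at hy
      rw [Ideal.Quotient.eq_zero_iff_mem, ← hqk n]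
      exact hy
    · intro y
      obtain ⟨r, hr⟩ := hqs n y
      exact ⟨Ideal.Quotient.mk _ r, hr⟩
  let f : ∀ n, PP 𝒪 →ₐ[𝒪] R ⧸ maximalIdeal R ^ n := fun n =>
    ((AlgEquiv.ofBijective (qb n) (hqb1 n)).symm : _ →ₐ[𝒪] _).comp (Ideal.Quotient.mkₐ 𝒪 (J n))
  have hf : ∀ n p, qb n (f n p) = Ideal.Quotient.mk (J n) p := by
    intro n p
    exact (AlgEquiv.ofBijective (qb n) (hqb1 n)).apply_symm_apply _
  have hqbfac : ∀ {n n' : ℕ} (h : n ≤ n') (y : R ⧸ maximalIdeal R ^ n'),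
      qb n (Ideal.Quotient.factorₐ 𝒪 (Ideal.pow_le_pow_right h) y) =
        Ideal.Quotient.factor (hanti h) (qb n' y) := by
    intro n n' h y
    obtain ⟨r, rfl⟩ := Ideal.Quotient.mk_surjective y
    change q n r = Ideal.Quotient.factor (hanti h) (q n' r)
    rw [hqc' h]
  let uR : PP 𝒪 →ₐ[𝒪] R := IsAdicComplete.liftAlgHom (maximalIdeal R) f (by
    intro n n' hle
    apply AlgHom.ext
    intro p
    apply (hqb1 n).1
    rw [AlgHom.comp_apply, hqbfac hle, hf, hf, Ideal.Quotient.factor_mk])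
  have huR : ∀ n p, q n (uR p) = Ideal.Quotient.mk (J n) p := by
    intro n p
    rw [← hqb, ← hf n p]
    congr 1
    exact IsAdicComplete.mk_liftAlgHom _ _ _ _ _
  -- separation
  have hsep : ∀ r : R, (∀ n, 1 ≤ n → q n r = 0) → r = 0 := by
    intro r hr
    refine IsHausdorff.haus (inferInstance : IsHausdorff (maximalIdeal R) R) r fun n => ?_
    rw [SModEq.zero, smul_eq_mul, Ideal.mul_top]
    rcases Nat.eq_zero_or_pos n with rfl | hn
    · rw [pow_zero, Ideal.one_eq_top]; trivial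
    · rw [← hqk n]
      exact hr n hn
  have hsep' : ∀ r s : R, (∀ n, 1 ≤ n → q n r = q n s) → r = s := by
    intro r s h
    rw [← sub_eq_zero]
    refine hsep _ fun n hn => ?_
    rw [map_sub, h n hn, sub_self]
  have hdense : ∀ {B : Type} [CommRing B] [Algebra 𝒪 B] (φ φ' : R →ₐ[𝒪] B)
      (_ : φ.comp uR = φ'.comp uR) (M : ℕ) (_ : maximalIdeal R ^ M ≤ RingHom.ker φ)
      (_ : maximalIdeal R ^ M ≤ RingHom.ker φ'), φ = φ' := by
    intro B _ _ φ φ' h M h1 h2
    apply AlgHom.ext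
    intro r
    obtain ⟨p, hp⟩ := Ideal.Quotient.mk_surjective (q M r)
    have h3 : r - uR p ∈ maximalIdeal R ^ M := by
      rw [← hqk M, RingHom.mem_ker, map_sub, huR, hp, sub_self]
    have h4 : φ r = φ (uR p) := by
      rw [← sub_eq_zero, ← map_sub]; exact h1 h3
    have h5 : φ' r = φ' (uR p) := by
      rw [← sub_eq_zero, ← map_sub]; exact h2 h3
    rw [h4, h5]
    exact AlgHom.congr_fun h p
  -- the universal framed representation
  have hmq : ∀ n g i j, q n (mat uR g i j) = mat (Ideal.Quotient.mkₐ 𝒪 (J n)) g i j :=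
    fun n g i j => huR n _
  have hgq : ∀ n (a : GQ →₀ 𝒪) i j, q n (gsum a (mat uR) i j) =
      gsum a (mat (Ideal.Quotient.mkₐ 𝒪 (J n))) i j := by
    intro n a i j
    rw [gsum_apply, gsum_apply, Finsupp.sum, Finsupp.sum, map_sum]
    refine Finset.sum_congr rfl fun g _ => ?_
    rw [map_mul, AlgHom.commutes, hmq]
  have hone : ∀ n i j, q n ((1 : Matrix (Fin 2) (Fin 2) R) i j) =
      (1 : Matrix (Fin 2) (Fin 2) (PP 𝒪 ⧸ J n)) i j := by
    intro n i j
    rw [one_apply, one_apply, apply_ite (q n), map_one, map_zero]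
  have hfr : Framed F uR := by
    refine ⟨?_, ?_, ?_, ⟨?_, ?_, ?_, ?_⟩⟩
    · ext i j
      refine hsep' _ _ fun n hn => ?_
      obtain ⟨_, hA, h, -⟩ := hJF n hn
      rw [hmq, h.one, hone]
    · intro g g'
      ext i j
      refine hsep' _ _ fun n hn => ?_
      obtain ⟨_, hA, h, -⟩ := hJF n hn
      rw [hmq, h.mul, mul_apply, mul_apply, map_sum]
      simp only [map_mul, hmq]
    · intro n
      obtain ⟨_, hA, h, -⟩ := hJF (max n 1) (le_max_right _ _)
      haveI := hA.isArtinian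
      obtain ⟨M, hM⟩ := (isArtinianRing_iff_isNilpotent_maximalIdeal
        (PP 𝒪 ⧸ J (max n 1))).mp hA.isArtinian
      obtain ⟨L, hL, h1⟩ := h.cont M
      refine ⟨L, hL, fun σ hσ i j => ?_⟩
      have h2 := h1 σ hσ i j
      rw [hM, Ideal.zero_eq_bot, Ideal.mem_bot, ← hmq, ← hone, ← map_sub, ← RingHom.mem_ker,
        hqk] at h2
      exact Ideal.pow_le_pow_right (le_max_left n 1) h2
    · intro g i j
      obtain ⟨_, hA, h, -⟩ := hJF 1 le_rfl
      have h1 := h.canon.resid g i j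
      rw [← hmq, ← AlgHom.commutes (q 1), ← map_sub] at h1
      intro hu
      exact h1 (hu.map (q 1))
    · refine hsep' _ _ fun n hn => ?_
      obtain ⟨_, hA, h, -⟩ := hJF n hn
      rw [hgq, h.canon.canα, map_zero]
    · refine hsep' _ _ fun n hn => ?_
      obtain ⟨_, hA, h, -⟩ := hJF n hn
      rw [hgq, h.canon.canβ0, map_zero]
    · refine hsep' _ _ fun n hn => ?_
      obtain ⟨_, hA, h, -⟩ := hJF n hn
      rw [hgq, h.canon.canβ1, map_one]
  have htype : 𝒟 hfr.rep := by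
    rw [Framed.type_iff h𝒟 iR6 hres hfr]
    intro B _ _ _ hB φ hφ hφs
    haveI := hB.isArtinian
    obtain ⟨M, hM⟩ := (isArtinianRing_iff_isNilpotent_maximalIdeal B).mp ‹_›
    have hMk : maximalIdeal R ^ (max M 1) ≤ RingHom.ker φ := by
      intro r hr
      have h1 : maximalIdeal R ≤ (maximalIdeal B).comap φ := fun a ha =>
        haveI := hφ
        map_nonunit (φ : R →+* B) a ha
      have h2 := (Ideal.pow_right_mono h1 M).trans (Ideal.le_comap_pow _ M)
        (Ideal.pow_le_pow_right (le_max_left M 1) hr)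
      rw [Ideal.mem_comap, hM, Ideal.zero_eq_bot, Ideal.mem_bot] at h2
      exact h2
    obtain ⟨_, hA, hg⟩ := hJF (max M 1) (le_max_right _ _)
    haveI := hA.isArtinian
    have hk : ∀ a ∈ J (max M 1), (φ.comp uR) a = 0 := by
      intro a ha
      have h1 : uR a ∈ maximalIdeal R ^ (max M 1) := by
        rw [← hqk, RingHom.mem_ker, huR, Ideal.Quotient.eq_zero_iff_mem]
        exact ha
      exact hMk h1
    have h1 := hg.comp h𝒟 hA hB (Ideal.Quotient.liftₐ (J (max M 1)) (φ.comp uR) hk)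
      (isLocalHom_of_artinian _)
    have h2 : (Ideal.Quotient.liftₐ (J (max M 1)) (φ.comp uR) hk).comp
        (Ideal.Quotient.mkₐ 𝒪 (J (max M 1))) = φ.comp uR := by
      ext p
      rfl
    rwa [h2] at h1
  refine ⟨{ R := R, residue_surjective := hres, absIrr := habs, ρ := hfr.rep,
            isOfType := htype, residual_isEquiv := Framed.residual_isEquiv F ρbar b hF hfr,
            universal := ?_ }⟩
  intro A _ _ _ _ _ _ hAres ρA hρA hρAres
  obtain ⟨uA, hA, ⟨eA⟩⟩ := exists_framed F ρbar b hF ρA hρAres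
  have hAtype : 𝒟 hA.rep := by
    have h1 := (h𝒟.iff_forall_surjective inferInstance hAres ρA).mp hρA
    refine (h𝒟.iff_forall_surjective inferInstance hAres hA.rep).mpr ?_
    intro B _ _ _ hB ψ hψ hψs
    exact h𝒟.of_isEquiv hB ⟨eA.baseChangeAlong _ hψ⟩ (h1 hB ψ hψ hψs)
  have hAgood := (Framed.type_iff h𝒟 inferInstance hAres hA).mp hAtype
  have hex : ∀ n, ∃ M, J M ≤ RingHom.ker ((Ideal.Quotient.mkₐ 𝒪 (maximalIdeal A ^ n)).comp uA) := by
    intro n
    rcases eq_or_ne n 0 with rfl | hn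
    · refine ⟨0, fun p _ => ?_⟩
      rw [RingHom.mem_ker, AlgHom.comp_apply, Ideal.Quotient.mkₐ_eq_mk,
        Ideal.Quotient.eq_zero_iff_mem, pow_zero, Ideal.one_eq_top]
      trivial
    · haveI : IsLocalRing (A ⧸ maximalIdeal A ^ n) := isLocalRing_quotPow hn
      obtain ⟨ht, hl⟩ := test_quotPow (𝒪 := 𝒪) inferInstance hAres hn
      have h1 := hAgood ht (Ideal.Quotient.mkₐ 𝒪 (maximalIdeal A ^ n)) hl
        Ideal.Quotient.mk_surjective
      obtain ⟨n₀, hn₀⟩ := hcof _ (ker_mem_Fam h𝒟 ht h1)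
      exact ⟨n₀, hn₀ n₀ le_rfl⟩
  choose M hM using hex
  let φn : ∀ n, R →ₐ[𝒪] A ⧸ maximalIdeal A ^ n := fun n =>
    (Ideal.Quotient.liftₐ (J (M n)) ((Ideal.Quotient.mkₐ 𝒪 (maximalIdeal A ^ n)).comp uA)
      (fun a ha => hM n ha)).comp (q (M n))
  have hφn : ∀ n, (φn n).comp uR = (Ideal.Quotient.mkₐ 𝒪 (maximalIdeal A ^ n)).comp uA := by
    intro n
    apply AlgHom.ext
    intro p
    change Ideal.Quotient.liftₐ (J (M n)) ((Ideal.Quotient.mkₐ 𝒪 (maximalIdeal A ^ n)).comp uA)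
      (fun a ha => hM n ha) (q (M n) (uR p)) = _
    rw [huR]
    rfl
  have hφk : ∀ n, maximalIdeal R ^ M n ≤ RingHom.ker (φn n) := by
    intro n r hr
    rw [← hqk] at hr
    rw [RingHom.mem_ker]
    change Ideal.Quotient.liftₐ (J (M n)) ((Ideal.Quotient.mkₐ 𝒪 (maximalIdeal A ^ n)).comp uA)
      (fun a ha => hM n ha) (q (M n) r) = _
    rw [RingHom.mem_ker.mp hr, map_zero]
  have hcompat : ∀ {n n' : ℕ} (hle : n ≤ n'),
      (Ideal.Quotient.factorₐ 𝒪 (Ideal.pow_le_pow_right hle)).comp (φn n') = φn n := by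
    intro n n' hle
    refine hdense _ _ ?_ (max (M n) (M n')) ?_ ?_
    · rw [AlgHom.comp_assoc, hφn, hφn]
      ext p
      rfl
    · intro r hr
      have h1 := hφk n' (Ideal.pow_le_pow_right (le_max_right (M n) (M n')) hr)
      rw [RingHom.mem_ker, AlgHom.comp_apply, RingHom.mem_ker.mp h1, map_zero]
    · exact (Ideal.pow_le_pow_right (le_max_left (M n) (M n'))).trans (hφk n)
  let φ : R →ₐ[𝒪] A := IsAdicComplete.liftAlgHom (maximalIdeal A) φn hcompat
  have hφmk : ∀ n r, Ideal.Quotient.mk (maximalIdeal A ^ n) (φ r) = φn n r := fun n r =>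
    IsAdicComplete.mk_liftAlgHom _ _ _ _ _
  have hφu : φ.comp uR = uA := by
    apply IsAdicComplete.algHom_ext (I := maximalIdeal A)
    intro n
    rw [← hφn n]
    apply AlgHom.ext
    intro p
    exact hφmk n (uR p)
  have hφloc : IsLocalHom (φ : R →+* A) := by
    constructor
    intro r hr
    by_contra hu
    have h1 : r ∈ maximalIdeal R := hu
    have h2 : φn 1 (r ^ M 1) = 0 := hφk 1 (Ideal.pow_mem_pow h1 _)
    rw [← hφmk, Ideal.Quotient.eq_zero_iff_mem, pow_one, map_pow] at h2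
    exact h2 (hr.pow _)
  have hex1 : (hfr.rep.baseChangeAlong (φ : R →+* A) hφloc).IsEquiv ρA := by
    obtain ⟨e1⟩ := hfr.rep_baseChangeAlong φ hφloc
    obtain ⟨e2⟩ := (hfr.comp φ hφloc).rep_congr hA hφu
    exact ⟨(e1.trans e2).trans eA.symm⟩
  refine ⟨φ, ⟨hφloc, hex1⟩, ?_⟩
  rintro φ' ⟨hφ'loc, ⟨e'⟩⟩
  have hu' : φ'.comp uR = uA := by
    obtain ⟨e1⟩ := hfr.rep_baseChangeAlong φ' hφ'loc
    exact Framed.unique (hfr.comp φ' hφ'loc) hA ⟨(e1.symm.trans e').trans eA⟩
  apply IsAdicComplete.algHom_ext (I := maximalIdeal A)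
  intro n
  refine hdense _ _ ?_ n ?_ ?_
  · rw [AlgHom.comp_assoc, AlgHom.comp_assoc, hu', hφu]
  · intro r hr
    have h1 : maximalIdeal R ≤ (maximalIdeal A).comap φ' := fun a ha =>
      haveI := hφ'loc
      map_nonunit (φ' : R →+* A) a ha
    have h2 := (Ideal.pow_right_mono h1 n).trans (Ideal.le_comap_pow _ n) hr
    rw [RingHom.mem_ker, AlgHom.comp_apply, Ideal.Quotient.mkₐ_eq_mk,
      Ideal.Quotient.eq_zero_iff_mem]
    exact h2
  · intro r hr
    have h1 : maximalIdeal R ≤ (maximalIdeal A).comap φ := fun a ha =>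
      haveI := hφloc
      map_nonunit (φ : R →+* A) a ha
    have h2 := (Ideal.pow_right_mono h1 n).trans (Ideal.le_comap_pow _ n) hr
    rw [RingHom.mem_ker, AlgHom.comp_apply, Ideal.Quotient.mkₐ_eq_mk,
      Ideal.Quotient.eq_zero_iff_mem]
    exact h2

end Main

end Fermat.Agent.DefRing
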