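import Mathlib
import Fermat.Prelude.Thm_IsAdicComplete_of_module_finite

set_option autoImplicit false

namespace Fermat.Agent.DefRing

open MvPowerSeries

section PowerSeriesEval

variable {𝒪 P : Type} [CommRing 𝒪] [CommRing P] [Algebra 𝒪 P] {m : Ideal P} {J : ℕ → Ideal P}
  {N : ℕ} {x : Fin N → P}

theorem aeval_mem_pow (hx : ∀ i, x i ∈ m) (n : ℕ) (p : MvPolynomial (Fin N) 𝒪)
    (hp : p ∈ MvPolynomial.idealOfVars (Fin N) 𝒪 ^ n) : MvPolynomial.aeval x p ∈ m ^ n := by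
  have h1 : MvPolynomial.idealOfVars (Fin N) 𝒪 ≤ m.comap (MvPolynomial.aeval (R := 𝒪) x) := by
    rw [Ideal.span_le]
    rintro _ ⟨i, rfl⟩
    simpa using hx i
  have h2 := Ideal.pow_right_mono h1 n hp
  exact Ideal.le_comap_pow _ n h2

/-- evaluation of a power series at `x` in `P ⧸ J n`. -/
noncomputable def ev (hx : ∀ i, x i ∈ m) (hJ : ∀ n, m ^ n ≤ J n) (n : ℕ) :
    MvPowerSeries (Fin N) 𝒪 →ₐ[𝒪] P ⧸ J n :=
  (Ideal.Quotient.liftₐ (MvPolynomial.idealOfVars (Fin N) 𝒪 ^ n)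
    ((Ideal.Quotient.mkₐ 𝒪 (J n)).comp (MvPolynomial.aeval x)) (fun a ha => by
      rw [AlgHom.comp_apply, Ideal.Quotient.mkₐ_eq_mk, Ideal.Quotient.eq_zero_iff_mem]
      exact hJ n (aeval_mem_pow hx n a ha))).comp
    ((MvPowerSeries.truncTotalAlgHom (Fin N) 𝒪 n).restrictScalars 𝒪)

theorem ev_apply (hx : ∀ i, x i ∈ m) (hJ : ∀ n, m ^ n ≤ J n) (n : ℕ)
    (f : MvPowerSeries (Fin N) 𝒪) :
    ev hx hJ n f = Ideal.Quotient.mk (J n) (MvPolynomial.aeval x (truncTotal n f)) := rfl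

theorem ev_coe (hx : ∀ i, x i ∈ m) (hJ : ∀ n, m ^ n ≤ J n) (n : ℕ)
    (p : MvPolynomial (Fin N) 𝒪) :
    ev hx hJ n (p : MvPowerSeries (Fin N) 𝒪) = Ideal.Quotient.mk (J n) (MvPolynomial.aeval x p) := by
  rw [ev_apply, Ideal.Quotient.eq, ← map_sub]
  refine hJ n (aeval_mem_pow hx n _ ?_)
  rw [MvPolynomial.mem_pow_idealOfVars_iff']
  intro e he
  rw [MvPolynomial.coeff_sub, sub_eq_zero, coeff_truncTotal _ he, MvPolynomial.coeff_coe]

theorem ev_X (hx : ∀ i, x i ∈ m) (hJ : ∀ n, m ^ n ≤ J n) (n : ℕ) (i : Fin N) :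
    ev hx hJ n (X i : MvPowerSeries (Fin N) 𝒪) = Ideal.Quotient.mk (J n) (x i) := by
  rw [← MvPolynomial.coe_X, ev_coe, MvPolynomial.aeval_X]

theorem factor_ev (hx : ∀ i, x i ∈ m) (hJ : ∀ n, m ^ n ≤ J n) (hanti : Antitone J) {n n' : ℕ}
    (h : n ≤ n') (f : MvPowerSeries (Fin N) 𝒪) :
    Ideal.Quotient.factor (hanti h) (ev hx hJ n' f) = ev hx hJ n f := by
  rw [ev_apply, ev_apply, Ideal.Quotient.factor_mk, Ideal.Quotient.eq, ← map_sub]
  exact hJ n (aeval_mem_pow hx n _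
    (truncTotal_sub_truncTotal_mem_pow_idealOfVars h le_rfl f))

end PowerSeriesEval

section Main

variable {𝒪 P : Type} [CommRing 𝒪] [CommRing P] [Algebra 𝒪 P] {m : Ideal P} {J : ℕ → Ideal P}
  {N : ℕ} {x : Fin N → P}

theorem exists_aeval_sub_mem (hres : Function.Surjective (algebraMap 𝒪 (P ⧸ m)))
    (hx : ∀ i, x i ∈ m) (I : Ideal P)
    (hgen : m ≤ Ideal.span (Set.range x) ⊔ I) (k : ℕ) (p : P) :
    ∃ f : MvPolynomial (Fin N) 𝒪, p - MvPolynomial.aeval x f ∈ m ^ k ⊔ I := by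
  induction k generalizing p with
  | zero => exact ⟨0, by rw [pow_zero, Ideal.one_eq_top, top_sup_eq]; trivial⟩
  | succ k ih =>
    obtain ⟨c, hc⟩ := hres (Ideal.Quotient.mk m p)
    have hy : p - algebraMap 𝒪 P c ∈ m := by
      rw [← Ideal.Quotient.eq]
      rw [← hc]; rfl
    obtain ⟨z, hz, j, hj, hzj⟩ := Submodule.mem_sup.mp (hgen hy)
    obtain ⟨a, ha⟩ := Ideal.mem_span_range_iff_exists_fun.mp hz
    choose f hf using fun i => ih (a i)
    refine ⟨MvPolynomial.C c + ∑ i, f i * MvPolynomial.X i, ?_⟩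
    have hsum : p - MvPolynomial.aeval x (MvPolynomial.C c + ∑ i, f i * MvPolynomial.X i) =
        (∑ i, (a i - MvPolynomial.aeval x (f i)) * x i) + j := by
      simp only [map_add, map_sum, map_mul, MvPolynomial.aeval_X, sub_mul, Finset.sum_sub_distrib]
      rw [ha, MvPolynomial.algHom_C]
      linear_combination -hzj
    rw [hsum]
    refine Ideal.add_mem _ (Ideal.sum_mem _ fun i _ => ?_) (Ideal.mem_sup_right hj)
    have h1 : (m ^ k ⊔ I) * m ≤ m ^ (k + 1) ⊔ I := by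
      rw [Ideal.sup_mul, ← pow_succ]
      exact sup_le_sup_left Ideal.mul_le_left _
    exact h1 (Ideal.mul_mem_mul (hf i) (hx i))

variable (hres : Function.Surjective (algebraMap 𝒪 (P ⧸ m)))
    (hx : ∀ i, x i ∈ m) (hJ : ∀ n, m ^ n ≤ J n) (hanti : Antitone J)
    (hgen : ∀ n, m ≤ Ideal.span (Set.range x) ⊔ J n)
    (hstep : ∀ n, J n ≤ J (n + 1) ⊔ m ^ n)

include hres hgen in
theorem ev_surjective (n : ℕ) : Function.Surjective (ev (𝒪 := 𝒪) hx hJ n) := by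
  intro y
  obtain ⟨p, rfl⟩ := Ideal.Quotient.mk_surjective y
  obtain ⟨f, hf⟩ := exists_aeval_sub_mem hres hx (J n) (hgen n) n p
  refine ⟨(f : MvPowerSeries (Fin N) 𝒪), ?_⟩
  rw [ev_coe, Ideal.Quotient.eq]
  rw [sup_eq_right.mpr (hJ n)] at hf
  rw [← neg_sub]
  exact neg_mem hf

/-- the ideal of variables in the power series ring -/
noncomputable abbrev IS (𝒪 : Type) [CommRing 𝒪] (N : ℕ) : Ideal (MvPowerSeries (Fin N) 𝒪) :=
  Ideal.span (Set.range X)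

theorem IS_le_comap (n : ℕ) : IS 𝒪 N ≤ (m.map (Ideal.Quotient.mk (J n))).comap
    (ev (𝒪 := 𝒪) hx hJ n) := by
  rw [Ideal.span_le]
  rintro _ ⟨i, rfl⟩
  rw [SetLike.mem_coe, Ideal.mem_comap, ev_X]
  exact Ideal.mem_map_of_mem _ (hx i)

theorem IS_pow_le_ker (n : ℕ) : IS 𝒪 N ^ n ≤ RingHom.ker (ev (𝒪 := 𝒪) hx hJ n) := by
  refine (Ideal.pow_right_mono (IS_le_comap hx hJ n) n).trans ?_
  refine (Ideal.le_comap_pow _ n).trans ?_
  rw [← Ideal.map_pow, ← RingHom.ker_coe_toRingHom]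
  intro s hs
  have h1 : (ev (𝒪 := 𝒪) hx hJ n) s ∈ (m ^ n).map (Ideal.Quotient.mk (J n)) := hs
  have h2 : (m ^ n).map (Ideal.Quotient.mk (J n)) = ⊥ := by
    rw [eq_bot_iff, Ideal.map_le_iff_le_comap]
    intro p hp
    rw [Ideal.mem_comap, Ideal.mem_bot, Ideal.Quotient.eq_zero_iff_mem]
    exact hJ n hp
  rw [h2] at h1
  exact h1

include hanti in
theorem ker_ev_anti {n n' : ℕ} (h : n ≤ n') :
    RingHom.ker (ev (𝒪 := 𝒪) hx hJ n') ≤ RingHom.ker (ev (𝒪 := 𝒪) hx hJ n) := by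
  intro s hs
  rw [RingHom.mem_ker] at hs ⊢
  rw [← factor_ev hx hJ hanti h, hs, map_zero]

include hres hgen hstep hanti in
theorem ker_ev_step (n : ℕ) : RingHom.ker (ev (𝒪 := 𝒪) hx hJ n) ≤
    RingHom.ker (ev (𝒪 := 𝒪) hx hJ (n + 1)) ⊔ IS 𝒪 N ^ n := by
  intro s hs
  obtain ⟨p, hp⟩ := Ideal.Quotient.mk_surjective (ev (𝒪 := 𝒪) hx hJ (n + 1) s)
  have hpJ : p ∈ J n := by
    rw [← Ideal.Quotient.eq_zero_iff_mem, ← Ideal.Quotient.factor_mk (hanti n.le_succ), hp,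
      factor_ev hx hJ hanti n.le_succ]
    exact hs
  obtain ⟨j, hj, y, hy, rfl⟩ := Submodule.mem_sup.mp (hstep n hpJ)
  have hmap : m.map (Ideal.Quotient.mk (J (n + 1))) ≤
      (IS 𝒪 N).map (ev (𝒪 := 𝒪) hx hJ (n + 1)) := by
    refine (Ideal.map_mono (hgen (n + 1))).trans ?_
    rw [Ideal.map_sup, Ideal.map_quotient_self, sup_bot_eq, Ideal.map_span, Ideal.span_le]
    rintro _ ⟨_, ⟨i, rfl⟩, rfl⟩
    rw [SetLike.mem_coe, ← ev_X (𝒪 := 𝒪) hx hJ (n + 1) i]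
    exact Ideal.mem_map_of_mem _ (Ideal.subset_span ⟨i, rfl⟩)
  have hy2 : Ideal.Quotient.mk (J (n + 1)) y ∈ (IS 𝒪 N ^ n).map (ev (𝒪 := 𝒪) hx hJ (n + 1)) := by
    rw [Ideal.map_pow]
    refine Ideal.pow_right_mono hmap n ?_
    rw [← Ideal.map_pow]
    exact Ideal.mem_map_of_mem _ hy
  obtain ⟨s', hs', hs''⟩ := (Ideal.mem_map_iff_of_surjective (ev (𝒪 := 𝒪) hx hJ (n + 1))
    (ev_surjective hres hx hJ hgen (n + 1))).mp hy2
  have hker : s - s' ∈ RingHom.ker (ev (𝒪 := 𝒪) hx hJ (n + 1)) := by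
    rw [RingHom.mem_ker, map_sub, hs'', ← hp, map_add, Ideal.Quotient.eq_zero_iff_mem.mpr hj,
      zero_add, sub_self]
  have := Ideal.add_mem _ (Ideal.mem_sup_left (T := IS 𝒪 N ^ n) hker) (Ideal.mem_sup_right hs')
  rwa [sub_add_cancel] at this

/-- the kernel of the map to the limit -/
noncomputable def KK : Ideal (MvPowerSeries (Fin N) 𝒪) := ⨅ n, RingHom.ker (ev (𝒪 := 𝒪) hx hJ n)

include hres hgen hstep hanti in
theorem ker_ev_le (n : ℕ) :
    RingHom.ker (ev (𝒪 := 𝒪) hx hJ n) ≤ KK (𝒪 := 𝒪) hx hJ ⊔ IS 𝒪 N ^ n := by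
  intro a ha
  have step : ∀ j, ∀ a ∈ RingHom.ker (ev (𝒪 := 𝒪) hx hJ j),
      ∃ a' ∈ RingHom.ker (ev (𝒪 := 𝒪) hx hJ (j + 1)), a - a' ∈ IS 𝒪 N ^ j := by
    intro j a ha
    obtain ⟨a', ha', b, hb, rfl⟩ := Submodule.mem_sup.mp
      (ker_ev_step hres hx hJ hanti hgen hstep j ha)
    exact ⟨a', ha', by simpa using hb⟩
  choose nxt hn1 hn2 using step
  let seq : ∀ j, {b // b ∈ RingHom.ker (ev (𝒪 := 𝒪) hx hJ (n + j))} := fun j => by
    induction j with
    | zero => exact ⟨a, ha⟩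
    | succ j ih => exact ⟨nxt (n + j) ih.1 ih.2, hn1 (n + j) ih.1 ih.2⟩
  have hseq : ∀ j, (seq j).1 - (seq (j + 1)).1 ∈ IS 𝒪 N ^ (n + j) := fun j =>
    hn2 (n + j) (seq j).1 (seq j).2
  have hseq' : ∀ i j, i ≤ j → (seq i).1 - (seq j).1 ∈ IS 𝒪 N ^ (n + i) := by
    intro i j hij
    induction j, hij using Nat.le_induction with
    | base => rw [sub_self]; exact Ideal.zero_mem _
    | succ j hij ih =>
      have h2 := Ideal.pow_le_pow_right (I := IS 𝒪 N) (show n + i ≤ n + j by omega) (hseq j)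
      have := Ideal.add_mem _ ih h2
      rwa [sub_add_sub_cancel] at this
  obtain ⟨L, hL⟩ := IsPrecomplete.prec (inferInstance : IsPrecomplete (IS 𝒪 N)
    (MvPowerSeries (Fin N) 𝒪)) (f := fun j => (seq j).1) (by
      intro i j hij
      rw [SModEq.sub_mem, smul_eq_mul, Ideal.mul_top]
      exact Ideal.pow_le_pow_right (show i ≤ n + i by omega) (hseq' i j hij))
  have hL' : ∀ j, (seq j).1 - L ∈ IS 𝒪 N ^ j := by
    intro j
    have := hL j
    rwa [SModEq.sub_mem, smul_eq_mul, Ideal.mul_top] at this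
  have hLK : L ∈ KK (𝒪 := 𝒪) hx hJ := by
    rw [KK, Ideal.mem_iInf]
    intro i
    have h1 := ker_ev_anti (𝒪 := 𝒪) hx hJ hanti (show i ≤ n + i by omega) (seq i).2
    have h2 := IS_pow_le_ker (𝒪 := 𝒪) hx hJ i (hL' i)
    have := Ideal.sub_mem _ h1 h2
    rwa [sub_sub_cancel] at this
  have h3 : a - L ∈ IS 𝒪 N ^ n := by
    have h4 := hseq' 0 n (Nat.zero_le n)
    have h5 := Ideal.add_mem _ h4 (hL' n)
    rw [sub_add_sub_cancel] at h5
    exact h5
  have := Ideal.add_mem _ (Ideal.mem_sup_left (T := IS 𝒪 N ^ n) hLK) (Ideal.mem_sup_right h3)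
  rwa [add_sub_cancel] at this

end Main

section Ring

variable {𝒪 P : Type} [CommRing 𝒪] [IsLocalRing 𝒪] [IsNoetherianRing 𝒪] [CommRing P] [Algebra 𝒪 P]
  {m : Ideal P} [m.IsMaximal] {J : ℕ → Ideal P} {N : ℕ} {x : Fin N → P}

/-- The pro-representing ring attached to a suitable filtration `J` of `P`. -/
theorem exists_proRing (hres : Function.Surjective (algebraMap 𝒪 (P ⧸ m)))
    (hx : ∀ i, x i ∈ m) (hJ : ∀ n, m ^ n ≤ J n) (hanti : Antitone J) (hJm : J 1 ≤ m)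
    (hgen : ∀ n, m ≤ Ideal.span (Set.range x) ⊔ J n)
    (hstep : ∀ n, J n ≤ J (n + 1) ⊔ m ^ n) :
    ∃ (R : Type) (_ : CommRing R) (_ : IsLocalRing R) (_ : IsNoetherianRing R)
      (_ : IsAdicComplete (IsLocalRing.maximalIdeal R) R) (_ : Algebra 𝒪 R)
      (_ : IsLocalHom (algebraMap 𝒪 R)) (q : ∀ n, R →ₐ[𝒪] P ⧸ J n),
      Function.Surjective (IsLocalRing.residue R ∘ algebraMap 𝒪 R) ∧
      (∀ n, Function.Surjective (q n)) ∧
      (∀ n, RingHom.ker (q n) = IsLocalRing.maximalIdeal R ^ n) ∧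
      (∀ n r, Ideal.Quotient.factor (hanti n.le_succ) (q (n + 1) r) = q n r) := by
  let S := MvPowerSeries (Fin N) 𝒪
  let K : Ideal S := KK hx hJ
  let R := S ⧸ K
  let IR : Ideal R := (IS 𝒪 N).map (Ideal.Quotient.mk K)
  have hnoeth : IsNoetherianRing R := inferInstanceAs (IsNoetherianRing (S ⧸ K))
  have hcomp : IsAdicComplete IR R := by
    have h1 : IsAdicComplete (IS 𝒪 N) R :=
      IsAdicComplete.of_module_finite (R := S) (IS 𝒪 N) (S ⧸ K)
    exact (IsAdicComplete.map_algebraMap_iff (R := S) (S := S ⧸ K) (IS 𝒪 N) (S ⧸ K)).mpr h1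
  have hKK : ∀ n, K ≤ RingHom.ker (ev (𝒪 := 𝒪) hx hJ n) := fun n => iInf_le _ n
  let q : ∀ n, R →ₐ[𝒪] P ⧸ J n := fun n =>
    Ideal.Quotient.liftₐ K (ev (𝒪 := 𝒪) hx hJ n) (fun a ha => hKK n ha)
  have hq : ∀ n (s : S), q n (Ideal.Quotient.mk K s) = ev (𝒪 := 𝒪) hx hJ n s := fun n s => rfl
  have hqs : ∀ n, Function.Surjective (q n) := by
    intro n y
    obtain ⟨s, hs⟩ := ev_surjective hres hx hJ hgen n y
    exact ⟨Ideal.Quotient.mk K s, by rw [hq, hs]⟩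
  have hqk : ∀ n, RingHom.ker (q n) = IR ^ n := by
    intro n
    apply le_antisymm
    · intro r hr
      obtain ⟨s, rfl⟩ := Ideal.Quotient.mk_surjective r
      have hs : s ∈ RingHom.ker (ev (𝒪 := 𝒪) hx hJ n) := hr
      obtain ⟨a, ha, b, hb, rfl⟩ := Submodule.mem_sup.mp
        (ker_ev_le hres hx hJ hanti hgen hstep n hs)
      rw [map_add, Ideal.Quotient.eq_zero_iff_mem.mpr ha, zero_add, ← Ideal.map_pow]
      exact Ideal.mem_map_of_mem _ hb
    · rw [← Ideal.map_pow, Ideal.map_le_iff_le_comap]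
      intro s hs
      exact IS_pow_le_ker (𝒪 := 𝒪) hx hJ n hs
  let qm : R →+* P ⧸ m := (Ideal.Quotient.factor hJm).comp (q 1 : R →+* P ⧸ J 1)
  have hqms : Function.Surjective qm :=
    (Ideal.Quotient.factor_surjective hJm).comp (hqs 1)
  have hqmc : ∀ c : 𝒪, qm (algebraMap 𝒪 R c) = algebraMap 𝒪 (P ⧸ m) c := by
    intro c
    change Ideal.Quotient.factor hJm (q 1 (algebraMap 𝒪 R c)) = _
    rw [AlgHom.commutes]
    rfl
  have hkerm : RingHom.ker qm = IR := by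
    have h2 : RingHom.ker qm = RingHom.ker (q 1) := by
      ext r
      rw [RingHom.mem_ker, RingHom.mem_ker]
      constructor
      · intro h
        obtain ⟨p, hp⟩ := Ideal.Quotient.mk_surjective (q 1 r)
        change Ideal.Quotient.factor hJm (q 1 r) = 0 at h
        rw [← hp, Ideal.Quotient.factor_mk, Ideal.Quotient.eq_zero_iff_mem] at h
        rw [← hp, Ideal.Quotient.eq_zero_iff_mem]
        exact hJ 1 (by rwa [pow_one])
      · intro h
        change Ideal.Quotient.factor hJm (q 1 r) = 0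
        rw [h, map_zero]
    exact (h2.trans (hqk 1)).trans (pow_one IR)
  have hmax : IR.IsMaximal := by
    letI := Ideal.Quotient.field m
    rw [← hkerm]
    exact RingHom.ker_isMaximal_of_surjective qm hqms
  have hloc : IsLocalRing R := isLocalRing_of_isAdicComplete_maximal IR
  have hmaxR : IsLocalRing.maximalIdeal R = IR := (IsLocalRing.eq_maximalIdeal hmax).symm
  have hlh : IsLocalHom (algebraMap 𝒪 R) := by
    constructor
    intro c hc
    by_contra hcu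
    have h1 : (RingHom.ker (algebraMap 𝒪 (P ⧸ m))).IsMaximal := by
      letI := Ideal.Quotient.field m
      exact RingHom.ker_isMaximal_of_surjective _ hres
    have h2 : c ∈ RingHom.ker (algebraMap 𝒪 (P ⧸ m)) := by
      rw [IsLocalRing.eq_maximalIdeal h1]
      exact hcu
    have h3 : IsUnit (qm (algebraMap 𝒪 R c)) := hc.map qm
    rw [hqmc, RingHom.mem_ker.mp h2] at h3
    haveI : Nontrivial (P ⧸ m) := Ideal.Quotient.nontrivial_iff.mpr (Ideal.IsMaximal.ne_top ‹_›)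
    exact not_isUnit_zero h3
  refine ⟨R, inferInstance, hloc, hnoeth, hmaxR ▸ hcomp, inferInstance, hlh, q, ?_, hqs, ?_, ?_⟩
  · intro y
    obtain ⟨r, rfl⟩ := IsLocalRing.residue_surjective y
    obtain ⟨c, hc⟩ := hres (qm r)
    refine ⟨c, ?_⟩
    rw [Function.comp_apply, ← sub_eq_zero, ← map_sub, IsLocalRing.residue_eq_zero_iff,
      hmaxR, ← hkerm, RingHom.mem_ker, map_sub, hqmc, hc, sub_self]
  · intro n
    rw [hqk n, hmaxR]
  · intro n r
    obtain ⟨s, rfl⟩ := Ideal.Quotient.mk_surjective r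
    rw [hq, hq, factor_ev hx hJ hanti n.le_succ]

end Ring

end Fermat.Agent.DefRing
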