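import Fermat.Agent.DefRing.Functor
import Fermat.Agent.DefRing.ProRing

set_option autoImplicit false
set_option maxHeartbeats 400000

namespace Fermat.Agent.DefRing

open Matrix IsLocalRing GaloisRep

section General

theorem isLocalHom_of_artinian {A B : Type} [CommRing A] [IsLocalRing A] [IsArtinianRing A]
    [CommRing B] [Nontrivial B] (φ : A →+* B) : IsLocalHom φ := by
  constructor
  intro a ha
  by_contra hu
  have h1 : a ∈ maximalIdeal A := hu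
  obtain ⟨n, hn⟩ := (isArtinianRing_iff_isNilpotent_maximalIdeal A).mp ‹_›
  have h2 : a ^ n = 0 := by
    have := Ideal.pow_mem_pow h1 n
    rwa [hn, Ideal.zero_eq_bot, Ideal.mem_bot] at this
  have h3 : IsUnit (φ a ^ n) := ha.pow n
  rw [← map_pow, h2, map_zero] at h3
  exact not_isUnit_zero h3

variable {𝒪 : Type} [CommRing 𝒪] [IsLocalRing 𝒪]

theorem finite_of_test [Finite (ResidueField 𝒪)] {A : Type} [CommRing A] [IsLocalRing A]
    [Algebra 𝒪 A] (hA : IsArtinianTestAlgebra 𝒪 A) : Finite A := by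
  haveI := hA.isArtinian
  haveI := hA.isLocalHom
  have h1 : Function.Surjective (ResidueField.map (algebraMap 𝒪 A)) := by
    intro y
    obtain ⟨c, hc⟩ := hA.residue_surjective y
    exact ⟨residue 𝒪 c, by rw [ResidueField.map_residue]; exact hc⟩
  haveI : Finite (ResidueField A) := Finite.of_surjective _ h1
  haveI : Finite (A ⧸ maximalIdeal A) := this
  obtain ⟨n, hn⟩ := (isArtinianRing_iff_isNilpotent_maximalIdeal A).mp ‹_›
  have h2 : Finite (A ⧸ maximalIdeal A ^ n) :=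
    Ideal.finite_quotient_pow (IsNoetherian.noetherian (maximalIdeal A)) n
  rw [hn, Ideal.zero_eq_bot] at h2
  exact Finite.of_injective (Ideal.Quotient.mk (⊥ : Ideal A)) (fun x y hxy => by
    rw [Ideal.Quotient.eq, Ideal.mem_bot, sub_eq_zero] at hxy
    exact hxy)

end General

section Test

variable {𝒪 : Type} [CommRing 𝒪] [IsLocalRing 𝒪] {P : Type} [CommRing P] [Algebra 𝒪 P]
  (κ : P →ₐ[𝒪] ResidueField 𝒪)

theorem kappa_surj : Function.Surjective κ := fun y => by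
  obtain ⟨c, rfl⟩ := residue_surjective y
  exact ⟨algebraMap 𝒪 P c, by rw [AlgHom.commutes]; rfl⟩

theorem ker_kappa_isMaximal : (RingHom.ker κ).IsMaximal :=
  RingHom.ker_isMaximal_of_surjective _ (kappa_surj κ)

theorem algebraMap_quot_surj : Function.Surjective (algebraMap 𝒪 (P ⧸ RingHom.ker κ)) := by
  intro y
  obtain ⟨p, rfl⟩ := Ideal.Quotient.mk_surjective y
  obtain ⟨c, hc⟩ := residue_surjective (κ p)
  refine ⟨c, ?_⟩
  change Ideal.Quotient.mk _ (algebraMap 𝒪 P c) = _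
  rw [Ideal.Quotient.eq, RingHom.mem_ker, map_sub, AlgHom.commutes, ← hc]
  exact sub_self _

theorem exists_sub_mem_ker (p : P) : ∃ c : 𝒪, residue 𝒪 c = κ p ∧
    p - algebraMap 𝒪 P c ∈ RingHom.ker κ := by
  obtain ⟨c, hc⟩ := residue_surjective (κ p)
  refine ⟨c, hc, ?_⟩
  rw [RingHom.mem_ker, map_sub, AlgHom.commutes, ← hc]
  exact sub_self _

variable {κ} {I : Ideal P}

theorem isLocalRing_quot (hI : I ≤ RingHom.ker κ) (hn : ∃ r, RingHom.ker κ ^ r ≤ I) :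
    IsLocalRing (P ⧸ I) := by
  haveI := ker_kappa_isMaximal κ
  have hmax : ((RingHom.ker κ).map (Ideal.Quotient.mk I)).IsMaximal :=
    Ideal.IsMaximal.map_of_surjective_of_ker_le Ideal.Quotient.mk_surjective
      (by rw [Ideal.mk_ker]; exact hI)
  refine IsLocalRing.of_unique_max_ideal ⟨_, hmax, fun J hJ => ?_⟩
  obtain ⟨r, hr⟩ := hn
  have h1 : (RingHom.ker κ).map (Ideal.Quotient.mk I) ^ r ≤ J := by
    rw [← Ideal.map_pow, Ideal.map_le_iff_le_comap]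
    intro p hp
    rw [Ideal.mem_comap, Ideal.Quotient.eq_zero_iff_mem.mpr (hr hp)]
    exact Ideal.zero_mem _
  exact (hmax.eq_of_le hJ.ne_top (hJ.isPrime.le_of_pow_le h1)).symm

theorem maximalIdeal_quot [IsLocalRing (P ⧸ I)] (hI : I ≤ RingHom.ker κ) :
    maximalIdeal (P ⧸ I) = (RingHom.ker κ).map (Ideal.Quotient.mk I) := by
  haveI := ker_kappa_isMaximal κ
  have hmax : ((RingHom.ker κ).map (Ideal.Quotient.mk I)).IsMaximal :=
    Ideal.IsMaximal.map_of_surjective_of_ker_le Ideal.Quotient.mk_surjective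
      (by rw [Ideal.mk_ker]; exact hI)
  exact (IsLocalRing.eq_maximalIdeal hmax).symm

theorem test_quot [IsLocalRing (P ⧸ I)] (hI : I ≤ RingHom.ker κ) [Finite (P ⧸ I)] :
    IsArtinianTestAlgebra 𝒪 (P ⧸ I) := by
  refine ⟨⟨fun c hc => ?_⟩, fun y => ?_, inferInstance⟩
  · let f : P ⧸ I →+* ResidueField 𝒪 := Ideal.Quotient.lift I (κ : P →+* ResidueField 𝒪) hI
    have h1 : f (algebraMap 𝒪 (P ⧸ I) c) = residue 𝒪 c := by
      change f (Ideal.Quotient.mk I (algebraMap 𝒪 P c)) = _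
      rw [Ideal.Quotient.lift_mk]
      exact κ.commutes c
    have h2 := hc.map f
    rw [h1] at h2
    by_contra hu
    have h3 : residue 𝒪 c = 0 := (IsLocalRing.residue_eq_zero_iff c).mpr hu
    rw [h3] at h2
    exact not_isUnit_zero h2
  · obtain ⟨z, rfl⟩ := residue_surjective y
    obtain ⟨p, rfl⟩ := Ideal.Quotient.mk_surjective z
    obtain ⟨c, -, hc⟩ := exists_sub_mem_ker κ p
    refine ⟨c, ?_⟩
    rw [Function.comp_apply, ← sub_eq_zero, ← map_sub, IsLocalRing.residue_eq_zero_iff,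
      maximalIdeal_quot hI, ← neg_sub]
    refine neg_mem ?_
    have := Ideal.mem_map_of_mem (Ideal.Quotient.mk I) hc
    rwa [map_sub] at this

end Test

section Fam

variable {𝒪 : Type} [CommRing 𝒪] [IsLocalRing 𝒪] (F : FrameDatum 𝒪 GQ)

/-- the residual point of `PP 𝒪` -/
noncomputable def kap : PP 𝒪 →ₐ[𝒪] ResidueField 𝒪 :=
  MvPolynomial.aeval fun x => residue 𝒪 (F.M x.1 x.2.1 x.2.2)

theorem residue_comp {A : Type} [CommRing A] [IsLocalRing A] [Algebra 𝒪 A]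
    [IsLocalHom (algebraMap 𝒪 A)] {u : PP 𝒪 →ₐ[𝒪] A} (h : ResidOK F (mat u)) (p : PP 𝒪) :
    residue A (u p) = ResidueField.map (algebraMap 𝒪 A) (kap F p) := by
  have : (residue A).comp (u : PP 𝒪 →+* A) =
      (ResidueField.map (algebraMap 𝒪 A)).comp (kap F : PP 𝒪 →+* ResidueField 𝒪) := by
    apply MvPolynomial.ringHom_ext
    · intro c
      rw [RingHom.comp_apply, RingHom.comp_apply]
      have h1 : (u : PP 𝒪 →+* A) (MvPolynomial.C c) = algebraMap 𝒪 A c := u.commutes c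
      have h2 : (kap F : PP 𝒪 →+* ResidueField 𝒪) (MvPolynomial.C c) = residue 𝒪 c :=
        (kap F).commutes c
      rw [h1, h2, ResidueField.map_residue]
    · rintro ⟨g, i, j⟩
      rw [RingHom.comp_apply, RingHom.comp_apply]
      have h2 : (kap F : PP 𝒪 →+* ResidueField 𝒪) (MvPolynomial.X (g, i, j)) =
          residue 𝒪 (F.M g i j) := by
        simp [kap]
      rw [h2, ResidueField.map_residue, ← sub_eq_zero, ← map_sub, IsLocalRing.residue_eq_zero_iff]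
      exact h g i j
  exact RingHom.congr_fun this p

theorem map_mem_maximalIdeal_iff {A : Type} [CommRing A] [IsLocalRing A] [Algebra 𝒪 A]
    [IsLocalHom (algebraMap 𝒪 A)] {u : PP 𝒪 →ₐ[𝒪] A} (h : ResidOK F (mat u)) (p : PP 𝒪) :
    u p ∈ maximalIdeal A ↔ p ∈ RingHom.ker (kap F) := by
  rw [← IsLocalRing.residue_eq_zero_iff, residue_comp F h, map_eq_zero_iff _ (RingHom.injective _),
    RingHom.mem_ker]

variable {F} in
theorem ker_le_of_framed {A : Type} [CommRing A] [IsLocalRing A] [Algebra 𝒪 A]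
    [IsLocalHom (algebraMap 𝒪 A)] {u : PP 𝒪 →ₐ[𝒪] A} (h : Framed F u) :
    RingHom.ker u ≤ RingHom.ker (kap F) := by
  intro p hp
  rw [← map_mem_maximalIdeal_iff F h.canon.resid, RingHom.mem_ker.mp hp]
  exact Ideal.zero_mem _

variable {F} in
theorem pow_le_ker_of_framed {A : Type} [CommRing A] [IsLocalRing A] [Algebra 𝒪 A]
    [IsLocalHom (algebraMap 𝒪 A)] [IsArtinianRing A] {u : PP 𝒪 →ₐ[𝒪] A} (h : Framed F u) :
    ∃ r, RingHom.ker (kap F) ^ r ≤ RingHom.ker u := by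
  obtain ⟨n, hn⟩ := (isArtinianRing_iff_isNilpotent_maximalIdeal A).mp ‹_›
  refine ⟨n, fun p hp => ?_⟩
  have h1 : RingHom.ker (kap F) ≤ (maximalIdeal A).comap u := fun p hp =>
    (map_mem_maximalIdeal_iff F h.canon.resid p).mpr hp
  have h2 := (Ideal.pow_right_mono h1 n).trans (Ideal.le_comap_pow _ n) hp
  rw [Ideal.mem_comap, hn, Ideal.zero_eq_bot, Ideal.mem_bot] at h2
  exact h2

variable (𝒟 : ∀ ⦃A : Type⦄ [CommRing A] [IsLocalRing A] [Algebra 𝒪 A], GaloisRepAdic A → Prop)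

/-- the family of kernels of good artinian points -/
def Fam : Set (Ideal (PP 𝒪)) :=
  {I | ∃ _ : IsLocalRing (PP 𝒪 ⧸ I), IsArtinianTestAlgebra 𝒪 (PP 𝒪 ⧸ I) ∧
    Good F 𝒟 (Ideal.Quotient.mkₐ 𝒪 I)}

variable {F 𝒟} (h𝒟 : GaloisRep.IsDeformationCondition 𝒪 𝒟)

omit [IsLocalRing 𝒪] in
theorem ker_mkA (I : Ideal (PP 𝒪)) : RingHom.ker (Ideal.Quotient.mkₐ 𝒪 I) = I := by
  ext x
  exact Ideal.Quotient.eq_zero_iff_mem

theorem fam_le {I : Ideal (PP 𝒪)} (hI : I ∈ Fam F 𝒟) : I ≤ RingHom.ker (kap F) := by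
  obtain ⟨_, hA, h, -⟩ := hI
  haveI := hA.isLocalHom
  have h1 := ker_le_of_framed h
  rwa [ker_mkA] at h1

theorem fam_pow_le {I : Ideal (PP 𝒪)} (hI : I ∈ Fam F 𝒟) :
    ∃ r, RingHom.ker (kap F) ^ r ≤ I := by
  obtain ⟨_, hA, h, -⟩ := hI
  haveI := hA.isLocalHom
  haveI := hA.isArtinian
  have h1 := pow_le_ker_of_framed h
  rwa [ker_mkA] at h1

theorem fam_finite [Finite (ResidueField 𝒪)] {I : Ideal (PP 𝒪)} (hI : I ∈ Fam F 𝒟) :
    Finite (PP 𝒪 ⧸ I) := by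
  obtain ⟨_, hA, -⟩ := hI
  exact finite_of_test hA

include h𝒟 in
theorem ker_mem_Fam [Finite (ResidueField 𝒪)] {A : Type} [CommRing A] [IsLocalRing A]
    [Algebra 𝒪 A] (hA : IsArtinianTestAlgebra 𝒪 A) {u : PP 𝒪 →ₐ[𝒪] A} (hu : Good F 𝒟 u) :
    RingHom.ker u ∈ Fam F 𝒟 := by
  haveI := hA.isLocalHom
  haveI := hA.isArtinian
  haveI := finite_of_test hA
  obtain ⟨h, hd⟩ := hu
  have h1 := ker_le_of_framed h
  have h2 := pow_le_ker_of_framed h
  haveI : Finite (PP 𝒪 ⧸ RingHom.ker u) :=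
    Finite.of_injective (Ideal.kerLiftAlg u) (Ideal.kerLiftAlg_injective u)
  haveI : IsLocalRing (PP 𝒪 ⧸ RingHom.ker u) := isLocalRing_quot h1 h2
  have ht : IsArtinianTestAlgebra 𝒪 (PP 𝒪 ⧸ RingHom.ker u) := test_quot h1
  refine ⟨‹_›, ht, ?_⟩
  haveI := ht.isArtinian
  refine Good.of_comp_injective h𝒟 ht hA (Ideal.kerLiftAlg u)
    (isLocalHom_of_artinian _) (Ideal.kerLiftAlg_injective u) ?_
  have : (Ideal.kerLiftAlg u).comp (Ideal.Quotient.mkₐ 𝒪 (RingHom.ker u)) = u := by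
    ext x
    rfl
  rw [this]
  exact ⟨h, hd⟩

include h𝒟 in
theorem fam_mono [Finite (ResidueField 𝒪)] {I I' : Ideal (PP 𝒪)} (hI : I ∈ Fam F 𝒟)
    (hII' : I ≤ I') (hI' : I' ≤ RingHom.ker (kap F)) : I' ∈ Fam F 𝒟 := by
  haveI := fam_finite hI
  obtain ⟨r, hr⟩ := fam_pow_le hI
  haveI : Finite (PP 𝒪 ⧸ I') := Finite.of_surjective _ (Ideal.Quotient.factor_surjective hII')
  haveI : IsLocalRing (PP 𝒪 ⧸ I') := isLocalRing_quot hI' ⟨r, hr.trans hII'⟩
  have ht : IsArtinianTestAlgebra 𝒪 (PP 𝒪 ⧸ I') := test_quot hI'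
  obtain ⟨_, hA, hg⟩ := hI
  haveI := hA.isArtinian
  refine ⟨‹_›, ht, ?_⟩
  have h1 := hg.comp h𝒟 hA ht (Ideal.Quotient.factorₐ 𝒪 hII') (isLocalHom_of_artinian _)
  have h2 : (Ideal.Quotient.factorₐ 𝒪 hII').comp (Ideal.Quotient.mkₐ 𝒪 I) =
      Ideal.Quotient.mkₐ 𝒪 I' := by
    ext x
    rfl
  rwa [h2] at h1

include h𝒟 in
theorem fam_inf [Finite (ResidueField 𝒪)] {I I' : Ideal (PP 𝒪)} (hI : I ∈ Fam F 𝒟)
    (hI' : I' ∈ Fam F 𝒟) : I ⊓ I' ∈ Fam F 𝒟 := by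
  haveI := fam_finite hI
  haveI := fam_finite hI'
  obtain ⟨r, hr⟩ := fam_pow_le hI
  obtain ⟨r', hr'⟩ := fam_pow_le hI'
  have hle := fam_le hI
  have hle' := fam_le hI'
  haveI : Finite (PP 𝒪 ⧸ I ⊓ I') := by
    refine Finite.of_injective (fun x : PP 𝒪 ⧸ I ⊓ I' =>
      ((Ideal.Quotient.factor (inf_le_left : I ⊓ I' ≤ I) x,
        Ideal.Quotient.factor (inf_le_right : I ⊓ I' ≤ I') x) : (PP 𝒪 ⧸ I) × (PP 𝒪 ⧸ I'))) ?_
    intro x y hxy
    obtain ⟨p, rfl⟩ := Ideal.Quotient.mk_surjective x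
    obtain ⟨q, rfl⟩ := Ideal.Quotient.mk_surjective y
    simp only [Ideal.Quotient.factor_mk, Prod.mk.injEq, Ideal.Quotient.eq] at hxy
    rw [Ideal.Quotient.eq]
    exact ⟨hxy.1, hxy.2⟩
  have hinfle : I ⊓ I' ≤ RingHom.ker (kap F) := inf_le_left.trans hle
  have hinfpow : ∃ s, RingHom.ker (kap F) ^ s ≤ I ⊓ I' :=
    ⟨max r r', le_inf ((Ideal.pow_le_pow_right (le_max_left _ _)).trans hr)
      ((Ideal.pow_le_pow_right (le_max_right _ _)).trans hr')⟩
  haveI : IsLocalRing (PP 𝒪 ⧸ I ⊓ I') := isLocalRing_quot hinfle hinfpow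
  have ht : IsArtinianTestAlgebra 𝒪 (PP 𝒪 ⧸ I ⊓ I') := test_quot hinfle
  have hsuple : I ⊔ I' ≤ RingHom.ker (kap F) := sup_le hle hle'
  haveI : Finite (PP 𝒪 ⧸ I ⊔ I') :=
    Finite.of_surjective _ (Ideal.Quotient.factor_surjective (le_sup_left : I ≤ I ⊔ I'))
  haveI : IsLocalRing (PP 𝒪 ⧸ I ⊔ I') := isLocalRing_quot hsuple ⟨r, hr.trans le_sup_left⟩
  have hts : IsArtinianTestAlgebra 𝒪 (PP 𝒪 ⧸ I ⊔ I') := test_quot hsuple
  obtain ⟨_, hA, hg⟩ := hI
  obtain ⟨_, hB, hg'⟩ := hI'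
  haveI := hA.isArtinian
  haveI := hB.isArtinian
  haveI := ht.isArtinian
  refine ⟨‹_›, ht, ?_⟩
  refine Good.of_fibreProduct h𝒟 hA hB hts ht
    (Ideal.Quotient.factorₐ 𝒪 (le_sup_left : I ≤ I ⊔ I'))
    (Ideal.Quotient.factorₐ 𝒪 (le_sup_right : I' ≤ I ⊔ I'))
    (Ideal.Quotient.factorₐ 𝒪 (inf_le_left : I ⊓ I' ≤ I))
    (Ideal.Quotient.factorₐ 𝒪 (inf_le_right : I ⊓ I' ≤ I'))
    (isLocalHom_of_artinian _) (isLocalHom_of_artinian _) ?_ ?_ ?_ ?_ ?_
  · apply AlgHom.ext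
    intro x
    obtain ⟨p, rfl⟩ := Ideal.Quotient.mk_surjective x
    rfl
  · intro x y hxy
    obtain ⟨p, rfl⟩ := Ideal.Quotient.mk_surjective x
    obtain ⟨q, rfl⟩ := Ideal.Quotient.mk_surjective y
    have h1 : Ideal.Quotient.mk I p = Ideal.Quotient.mk I q := congrArg Prod.fst hxy
    have h2 : Ideal.Quotient.mk I' p = Ideal.Quotient.mk I' q := congrArg Prod.snd hxy
    rw [Ideal.Quotient.eq] at h1 h2 ⊢
    exact ⟨h1, h2⟩
  · intro x y hxy
    obtain ⟨p, rfl⟩ := Ideal.Quotient.mk_surjective x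
    obtain ⟨q, rfl⟩ := Ideal.Quotient.mk_surjective y
    have h1 : Ideal.Quotient.mk (I ⊔ I') p = Ideal.Quotient.mk (I ⊔ I') q := hxy
    rw [Ideal.Quotient.eq] at h1
    obtain ⟨i, hi, i', hi', hii'⟩ := Submodule.mem_sup.mp h1
    refine ⟨Ideal.Quotient.mk _ (p - i), ?_, ?_⟩
    · change Ideal.Quotient.mk I (p - i) = Ideal.Quotient.mk I p
      rw [Ideal.Quotient.eq]
      simpa using hi
    · change Ideal.Quotient.mk I' (p - i) = Ideal.Quotient.mk I' q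
      rw [Ideal.Quotient.eq]
      have : p - i - q = i' := by linear_combination -hii'
      rw [this]
      exact hi'
  · exact hg
  · exact hg'

end Fam

end Fermat.Agent.DefRing
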