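import Fermat.Agent.DefRing.Tangent

set_option autoImplicit false
set_option maxHeartbeats 400000

namespace Fermat.Agent.DefRing

open Matrix IsLocalRing GaloisRep

variable {𝒪 : Type} [CommRing 𝒪] [IsLocalRing 𝒪] [IsNoetherianRing 𝒪] [Finite (ResidueField 𝒪)]
  {F : FrameDatum 𝒪 GQ}
  {𝒟 : ∀ ⦃A : Type⦄ [CommRing A] [IsLocalRing A] [Algebra 𝒪 A], GaloisRepAdic A → Prop}
  (h𝒟 : GaloisRep.IsDeformationCondition 𝒪 𝒟)
  {N : ℕ} {x : Fin N → PP 𝒪} (hx : ∀ i, x i ∈ RingHom.ker (kap F))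
  (hgen : ∀ I ∈ Fam F 𝒟, RingHom.ker (kap F) ≤ Ideal.span (Set.range x) ⊔ I)
  (hne : (Fam F 𝒟).Nonempty)

include hx hgen in
/-- the quotients `P ⧸ (I ⊔ m ^ n)` have uniformly bounded cardinality. -/
theorem card_bound (n : ℕ) : ∃ C : ℕ, ∀ I ∈ Fam F 𝒟,
    Finite (PP 𝒪 ⧸ I ⊔ RingHom.ker (kap F) ^ n) ∧
      Nat.card (PP 𝒪 ⧸ I ⊔ RingHom.ker (kap F) ^ n) ≤ C := by
  let Q0 := MvPolynomial (Fin N) 𝒪
  let M' : Ideal Q0 := (RingHom.ker (kap F)).comap (MvPolynomial.aeval (R := 𝒪) x)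
  have hker : M' = RingHom.ker ((kap F).comp (MvPolynomial.aeval (R := 𝒪) x)) := by
    ext p; rfl
  have hfin1 : Finite (Q0 ⧸ M') := by
    rw [hker]
    exact Finite.of_injective _ (RingHom.kerLift_injective
      (((kap F).comp (MvPolynomial.aeval (R := 𝒪) x) : Q0 →ₐ[𝒪] ResidueField 𝒪) :
        Q0 →+* ResidueField 𝒪))
  haveI hfin2 : Finite (Q0 ⧸ M' ^ n) := Ideal.finite_quotient_pow (IsNoetherian.noetherian M') n
  refine ⟨Nat.card (Q0 ⧸ M' ^ n), fun I hI => ?_⟩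
  let f : Q0 ⧸ M' ^ n →+* PP 𝒪 ⧸ I ⊔ RingHom.ker (kap F) ^ n :=
    Ideal.Quotient.lift (M' ^ n)
      ((Ideal.Quotient.mk _).comp ((MvPolynomial.aeval (R := 𝒪) x : Q0 →ₐ[𝒪] PP 𝒪) : Q0 →+* PP 𝒪))
      (fun a ha => by
        rw [RingHom.comp_apply, Ideal.Quotient.eq_zero_iff_mem]
        exact Ideal.mem_sup_right (Ideal.le_comap_pow _ n ha))
  have hf : Function.Surjective f := by
    intro y
    obtain ⟨p, rfl⟩ := Ideal.Quotient.mk_surjective y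
    obtain ⟨g, hg⟩ := exists_aeval_sub_mem (algebraMap_quot_surj (kap F)) hx I (hgen I hI) n p
    refine ⟨Ideal.Quotient.mk _ g, ?_⟩
    rw [Ideal.Quotient.lift_mk, RingHom.comp_apply, Ideal.Quotient.eq, ← neg_sub]
    rw [sup_comm] at hg
    exact neg_mem hg
  exact ⟨Finite.of_surjective f hf, Nat.card_le_card_of_surjective f hf⟩

include h𝒟 hx hgen hne in
theorem exists_min (n : ℕ) : ∃ I ∈ Fam F 𝒟, ∀ I' ∈ Fam F 𝒟,
    I ⊔ RingHom.ker (kap F) ^ n ≤ I' ⊔ RingHom.ker (kap F) ^ n := by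
  obtain ⟨C, hC⟩ := card_bound hx hgen n
  let S : Set ℕ := {c | ∃ I ∈ Fam F 𝒟, Nat.card (PP 𝒪 ⧸ I ⊔ RingHom.ker (kap F) ^ n) = c}
  have hSne : S.Nonempty := by
    obtain ⟨I, hI⟩ := hne
    exact ⟨_, I, hI, rfl⟩
  have hSb : BddAbove S := ⟨C, by rintro _ ⟨I, hI, rfl⟩; exact (hC I hI).2⟩
  obtain ⟨I, hI, hIc⟩ := Nat.sSup_mem hSne hSb
  refine ⟨I, hI, fun I' hI' => ?_⟩
  have hI'' := fam_inf h𝒟 hI hI'
  have hle : (I ⊓ I') ⊔ RingHom.ker (kap F) ^ n ≤ I ⊔ RingHom.ker (kap F) ^ n :=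
    sup_le_sup_right inf_le_left _
  have hcard : Nat.card (PP 𝒪 ⧸ (I ⊓ I') ⊔ RingHom.ker (kap F) ^ n) ≤
      Nat.card (PP 𝒪 ⧸ I ⊔ RingHom.ker (kap F) ^ n) := by
    rw [hIc]
    exact le_csSup hSb ⟨_, hI'', rfl⟩
  haveI := (hC _ hI'').1
  have hbij := (Ideal.Quotient.factor_surjective hle).bijective_of_nat_card_le hcard
  have h1 : I ⊔ RingHom.ker (kap F) ^ n ≤ (I ⊓ I') ⊔ RingHom.ker (kap F) ^ n := by
    intro p hp
    rw [← Ideal.Quotient.eq_zero_iff_mem]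
    apply hbij.1
    rw [map_zero, Ideal.Quotient.factor_mk, Ideal.Quotient.eq_zero_iff_mem]
    exact hp
  exact h1.trans (sup_le_sup_right inf_le_right _)

include h𝒟 hx hgen hne in
theorem exists_filtration : ∃ J : ℕ → Ideal (PP 𝒪), Antitone J ∧
    (∀ n, RingHom.ker (kap F) ^ n ≤ J n) ∧ (∀ n, 1 ≤ n → J n ∈ Fam F 𝒟) ∧
    (∀ n, RingHom.ker (kap F) ≤ Ideal.span (Set.range x) ⊔ J n) ∧
    (∀ n, J n ≤ J (n + 1) ⊔ RingHom.ker (kap F) ^ n) ∧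
    (∀ I ∈ Fam F 𝒟, ∃ n₀, ∀ n, n₀ ≤ n → J n ≤ I) := by
  choose I hI hmin using exists_min h𝒟 hx hgen hne
  let J : ℕ → Ideal (PP 𝒪) := fun n => I n ⊔ RingHom.ker (kap F) ^ n
  refine ⟨J, antitone_nat_of_succ_le fun n => ?_, fun n => le_sup_right, fun n hn => ?_,
    fun n => ?_, fun n => ?_, fun I' hI' => ?_⟩
  · exact (hmin (n + 1) (I n) (hI n)).trans
      (sup_le_sup_left (Ideal.pow_le_pow_right (Nat.le_succ n)) _)
  · exact fam_mono h𝒟 (hI n) le_sup_left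
      (sup_le (fam_le (hI n)) (Ideal.pow_le_self (by omega)))
  · exact (hgen (I n) (hI n)).trans (sup_le_sup_left le_sup_left _)
  · exact (hmin n (I (n + 1)) (hI (n + 1))).trans (sup_le_sup_right le_sup_left _)
  · obtain ⟨r, hr⟩ := fam_pow_le hI'
    refine ⟨r, fun n hn => (hmin n I' hI').trans (sup_le le_rfl ?_)⟩
    exact (Ideal.pow_le_pow_right hn).trans hr

end Fermat.Agent.DefRing
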