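import Fermat.Agent.DefRing.MatRep

set_option autoImplicit false
set_option maxHeartbeats 400000

namespace Fermat.Agent.DefRing

open Matrix IsLocalRing GaloisRep

variable {𝒪 : Type} [CommRing 𝒪] [IsLocalRing 𝒪]

/-- the polynomial ring on matrix entries -/
abbrev PP (𝒪 : Type) [CommRing 𝒪] : Type := MvPolynomial (GQ × Fin 2 × Fin 2) 𝒪

/-- the matrix valued function attached to a homomorphism out of `PP` -/
noncomputable def mat {A : Type} [CommRing A] [Algebra 𝒪 A] (u : PP 𝒪 →ₐ[𝒪] A) :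
    GQ → Matrix (Fin 2) (Fin 2) A := fun g i j => u (MvPolynomial.X (g, i, j))

variable (F : FrameDatum 𝒪 GQ)

/-- `u` defines a framed deformation in canonical form. -/
structure Framed {A : Type} [CommRing A] [IsLocalRing A] [Algebra 𝒪 A] (u : PP 𝒪 →ₐ[𝒪] A) :
    Prop where
  one : mat u 1 = 1
  mul : ∀ g h, mat u (g * h) = mat u g * mat u h
  cont : MatCont (mat u)
  canon : IsCanon F (mat u)

namespace Framed

variable {F}
variable {A : Type} [CommRing A] [IsLocalRing A] [Algebra 𝒪 A] {u u' : PP 𝒪 →ₐ[𝒪] A}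

/-- the matrix representation -/
noncomputable def hom (h : Framed F u) : GQ →* Matrix (Fin 2) (Fin 2) A where
  toFun := mat u
  map_one' := h.one
  map_mul' := h.mul

/-- the Galois representation -/
noncomputable def rep (h : Framed F u) : GaloisRepAdic A := matRep h.hom h.cont

theorem mapT_hom (h : Framed F u) {B : Type} [CommRing B] [IsLocalRing B] [Algebra 𝒪 B]
    (φ : A →ₐ[𝒪] B) (g : GQ) : mapT (φ : A →+* B) h.hom g = mat (φ.comp u) g := by
  ext i j
  rfl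

theorem comp (h : Framed F u) {B : Type} [CommRing B] [IsLocalRing B] [Algebra 𝒪 B]
    (φ : A →ₐ[𝒪] B) (hφ : IsLocalHom (φ : A →+* B)) : Framed F (φ.comp u) where
  one := by
    rw [← h.mapT_hom, map_one]
  mul g g' := by
    rw [← h.mapT_hom, ← h.mapT_hom, ← h.mapT_hom, map_mul]
  cont := by
    have h1 := (show MatCont h.hom from h.cont).map (φ : A →+* B) hφ
    intro n
    obtain ⟨L, hL, h2⟩ := h1 n
    refine ⟨L, hL, fun σ hσ i j => ?_⟩
    rw [← h.mapT_hom]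
    exact h2 σ hσ i j
  canon := by
    have hg : ∀ (a : GQ →₀ 𝒪) i j, gsum a (mat (φ.comp u)) i j = φ (gsum a (mat u) i j) := by
      intro a i j
      rw [gsum_apply, gsum_apply, Finsupp.sum, Finsupp.sum, map_sum]
      refine Finset.sum_congr rfl fun g _ => ?_
      rw [map_mul, AlgHom.commutes]
      rfl
    refine ⟨fun g i j => ?_, ?_, ?_, ?_⟩
    · have h1 : φ (mat u g i j - algebraMap 𝒪 A (F.M g i j)) ∈ maximalIdeal B :=
        haveI := hφ
        map_nonunit (φ : A →+* B) _ (h.canon.resid g i j)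
      rw [map_sub, AlgHom.commutes] at h1
      exact h1
    · rw [hg, h.canon.canα, map_zero]
    · rw [hg, h.canon.canβ0, map_zero]
    · rw [hg, h.canon.canβ1, map_one]

theorem rep_baseChangeAlong (h : Framed F u) {B : Type} [CommRing B] [IsLocalRing B]
    [Algebra 𝒪 B] (φ : A →ₐ[𝒪] B) (hφ : IsLocalHom (φ : A →+* B)) :
    (h.rep.baseChangeAlong (φ : A →+* B) hφ).IsEquiv (h.comp φ hφ).rep := by
  obtain ⟨e⟩ := matRep_baseChangeAlong (φ : A →+* B) hφ (T := h.hom) h.cont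
  have e2 : (matRep (mapT (φ : A →+* B) h.hom)
      ((show MatCont h.hom from h.cont).map (φ : A →+* B) hφ)).IsEquiv (h.comp φ hφ).rep :=
    matRep_isEquiv_of_conj _ _ 1 1 (mul_one _) (mul_one _) (fun g => by
      rw [one_mul, mul_one]
      exact h.mapT_hom φ g)
  obtain ⟨e2⟩ := e2
  exact ⟨e.trans e2⟩

/-- uniqueness of the canonical form. -/
theorem unique [IsLocalHom (algebraMap 𝒪 A)] (h : Framed F u) (h' : Framed F u')
    (he : h.rep.IsEquiv h'.rep) : u = u' := by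
  obtain ⟨Q, Q', hQ, hc⟩ := conj_of_matRep_isEquiv he
  have h1 : mat u = mat u' := h.canon.eq_of_conj F h'.canon Q Q' hQ hc
  apply MvPolynomial.algHom_ext
  rintro ⟨g, i, j⟩
  exact congrFun (congrFun (congrFun h1 g) i) j

/-- descent along an injective map, Artinian case. -/
theorem of_comp_injective {B : Type} [CommRing B] [IsLocalRing B] [Algebra 𝒪 B]
    [IsArtinianRing B] (φ : A →ₐ[𝒪] B) (hφi : Function.Injective φ)
    (h : Framed F (φ.comp u)) : Framed F u := by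
  have hm : ∀ g i j, mat (φ.comp u) g i j = φ (mat u g i j) := fun g i j => rfl
  have hg : ∀ (a : GQ →₀ 𝒪) i j, gsum a (mat (φ.comp u)) i j = φ (gsum a (mat u) i j) := by
    intro a i j
    rw [gsum_apply, gsum_apply, Finsupp.sum, Finsupp.sum, map_sum]
    refine Finset.sum_congr rfl fun g _ => ?_
    rw [map_mul, AlgHom.commutes]
    rfl
  have hone : ∀ i j, φ ((1 : Matrix (Fin 2) (Fin 2) A) i j) =
      (1 : Matrix (Fin 2) (Fin 2) B) i j := by
    intro i j
    rw [one_apply, one_apply, apply_ite φ, map_one, map_zero]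
  refine ⟨?_, ?_, ?_, ⟨?_, ?_, ?_, ?_⟩⟩
  · ext i j
    apply hφi
    rw [← hm, h.one, hone]
  · intro g g'
    ext i j
    apply hφi
    rw [← hm, h.mul, mul_apply, mul_apply, map_sum]
    simp only [map_mul, hm]
  · obtain ⟨N, hN⟩ := (isArtinianRing_iff_isNilpotent_maximalIdeal B).mp ‹_›
    obtain ⟨L, hL, h1⟩ := h.cont N
    intro n
    refine ⟨L, hL, fun σ hσ i j => ?_⟩
    have h2 := h1 σ hσ i j
    rw [hN, Ideal.zero_eq_bot, Ideal.mem_bot, hm, ← hone, ← map_sub] at h2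
    have h3 : mat u σ i j - (1 : Matrix (Fin 2) (Fin 2) A) i j = 0 := hφi (h2.trans (map_zero _).symm)
    rw [h3]
    exact Ideal.zero_mem _
  · intro g i j
    have h1 := h.canon.resid g i j
    rw [hm, ← AlgHom.commutes φ, ← map_sub] at h1
    intro hu
    exact h1 (hu.map φ)
  · apply hφi
    rw [← hg, h.canon.canα, map_zero]
  · apply hφi
    rw [← hg, h.canon.canβ0, map_zero]
  · apply hφi
    rw [← hg, h.canon.canβ1, map_one]

end Framed

section

variable (𝒟 : ∀ ⦃A : Type⦄ [CommRing A] [IsLocalRing A] [Algebra 𝒪 A], GaloisRepAdic A → Prop)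

/-- `u` defines a framed deformation in canonical form, of type `𝒟`. -/
def Good {A : Type} [CommRing A] [IsLocalRing A] [Algebra 𝒪 A] (u : PP 𝒪 →ₐ[𝒪] A) : Prop :=
  ∃ h : Framed F u, 𝒟 h.rep

variable {F 𝒟} (h𝒟 : GaloisRep.IsDeformationCondition 𝒪 𝒟)

include h𝒟 in
theorem Good.comp {A : Type} [CommRing A] [IsLocalRing A] [Algebra 𝒪 A] {u : PP 𝒪 →ₐ[𝒪] A}
    (h : Good F 𝒟 u) (hA : IsArtinianTestAlgebra 𝒪 A)
    {B : Type} [CommRing B] [IsLocalRing B] [Algebra 𝒪 B] (hB : IsArtinianTestAlgebra 𝒪 B)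
    (φ : A →ₐ[𝒪] B) (hφ : IsLocalHom (φ : A →+* B)) : Good F 𝒟 (φ.comp u) := by
  obtain ⟨h, hd⟩ := h
  exact ⟨h.comp φ hφ, h𝒟.of_isEquiv hB (h.rep_baseChangeAlong φ hφ)
    (h𝒟.baseChangeAlong hA hB φ hφ hd)⟩

include h𝒟 in
theorem Good.of_comp_injective {A : Type} [CommRing A] [IsLocalRing A] [Algebra 𝒪 A]
    {u : PP 𝒪 →ₐ[𝒪] A} (hA : IsArtinianTestAlgebra 𝒪 A)
    {B : Type} [CommRing B] [IsLocalRing B] [Algebra 𝒪 B] (hB : IsArtinianTestAlgebra 𝒪 B)
    (φ : A →ₐ[𝒪] B) (hφ : IsLocalHom (φ : A →+* B)) (hφi : Function.Injective φ)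
    (h : Good F 𝒟 (φ.comp u)) : Good F 𝒟 u := by
  obtain ⟨h, hd⟩ := h
  haveI := hB.isArtinian
  have h1 : Framed F u := Framed.of_comp_injective φ hφi h
  refine ⟨h1, h𝒟.of_baseChangeAlong_injective hA hB φ hφ hφi ?_⟩
  obtain ⟨e⟩ := h1.rep_baseChangeAlong φ hφ
  exact h𝒟.of_isEquiv hB ⟨e.symm⟩ hd

include h𝒟 in
theorem Good.of_fibreProduct {A B C P : Type} [CommRing A] [IsLocalRing A] [Algebra 𝒪 A]
    [CommRing B] [IsLocalRing B] [Algebra 𝒪 B] [CommRing C] [IsLocalRing C] [Algebra 𝒪 C]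
    [CommRing P] [IsLocalRing P] [Algebra 𝒪 P]
    (hA : IsArtinianTestAlgebra 𝒪 A) (hB : IsArtinianTestAlgebra 𝒪 B)
    (hC : IsArtinianTestAlgebra 𝒪 C) (hP : IsArtinianTestAlgebra 𝒪 P)
    (f : A →ₐ[𝒪] C) (g : B →ₐ[𝒪] C) (pA : P →ₐ[𝒪] A) (pB : P →ₐ[𝒪] B)
    (hpA : IsLocalHom (pA : P →+* A)) (hpB : IsLocalHom (pB : P →+* B))
    (hfg : f.comp pA = g.comp pB) (hinj : Function.Injective (fun x => (pA x, pB x)))
    (hsurj : ∀ a b, f a = g b → ∃ x, pA x = a ∧ pB x = b) {u : PP 𝒪 →ₐ[𝒪] P}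
    (h1 : Good F 𝒟 (pA.comp u)) (h2 : Good F 𝒟 (pB.comp u)) : Good F 𝒟 u := by
  obtain ⟨h1, hd1⟩ := h1
  obtain ⟨h2, hd2⟩ := h2
  haveI := hA.isArtinian
  haveI := hB.isArtinian
  have hinj' : ∀ x y : P, pA x = pA y → pB x = pB y → x = y := fun x y hx hy =>
    hinj (Prod.ext hx hy)
  have hmA : ∀ g i j, mat (pA.comp u) g i j = pA (mat u g i j) := fun g i j => rfl
  have hmB : ∀ g i j, mat (pB.comp u) g i j = pB (mat u g i j) := fun g i j => rfl
  have hgA : ∀ (a : GQ →₀ 𝒪) i j, gsum a (mat (pA.comp u)) i j = pA (gsum a (mat u) i j) := by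
    intro a i j
    rw [gsum_apply, gsum_apply, Finsupp.sum, Finsupp.sum, map_sum]
    refine Finset.sum_congr rfl fun g _ => ?_
    rw [map_mul, AlgHom.commutes]
    rfl
  have hgB : ∀ (a : GQ →₀ 𝒪) i j, gsum a (mat (pB.comp u)) i j = pB (gsum a (mat u) i j) := by
    intro a i j
    rw [gsum_apply, gsum_apply, Finsupp.sum, Finsupp.sum, map_sum]
    refine Finset.sum_congr rfl fun g _ => ?_
    rw [map_mul, AlgHom.commutes]
    rfl
  have honeA : ∀ i j, pA ((1 : Matrix (Fin 2) (Fin 2) P) i j) =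
      (1 : Matrix (Fin 2) (Fin 2) A) i j := by
    intro i j
    rw [one_apply, one_apply, apply_ite pA, map_one, map_zero]
  have honeB : ∀ i j, pB ((1 : Matrix (Fin 2) (Fin 2) P) i j) =
      (1 : Matrix (Fin 2) (Fin 2) B) i j := by
    intro i j
    rw [one_apply, one_apply, apply_ite pB, map_one, map_zero]
  have h : Framed F u := by
    refine ⟨?_, ?_, ?_, ⟨?_, ?_, ?_, ?_⟩⟩
    · ext i j
      apply hinj'
      · rw [← hmA, h1.one, honeA]
      · rw [← hmB, h2.one, honeB]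
    · intro g g'
      ext i j
      apply hinj'
      · rw [← hmA, h1.mul, mul_apply, mul_apply, map_sum]
        simp only [map_mul, hmA]
      · rw [← hmB, h2.mul, mul_apply, mul_apply, map_sum]
        simp only [map_mul, hmB]
    · obtain ⟨N1, hN1⟩ := (isArtinianRing_iff_isNilpotent_maximalIdeal A).mp ‹_›
      obtain ⟨L1, hL1, hc1⟩ := h1.cont N1
      obtain ⟨N2, hN2⟩ := (isArtinianRing_iff_isNilpotent_maximalIdeal B).mp ‹_›
      obtain ⟨L2, hL2, hc2⟩ := h2.cont N2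
      intro n
      refine ⟨L1 ⊔ L2, inferInstance, fun σ hσ i j => ?_⟩
      have e1 := hc1 σ (fun x hx => hσ x ((le_sup_left : L1 ≤ L1 ⊔ L2) hx)) i j
      have e2 := hc2 σ (fun x hx => hσ x ((le_sup_right : L2 ≤ L1 ⊔ L2) hx)) i j
      rw [hN1, Ideal.zero_eq_bot, Ideal.mem_bot, hmA, ← honeA, ← map_sub] at e1
      rw [hN2, Ideal.zero_eq_bot, Ideal.mem_bot, hmB, ← honeB, ← map_sub] at e2
      have h3 : mat u σ i j - (1 : Matrix (Fin 2) (Fin 2) P) i j = 0 :=
        hinj' _ _ (e1.trans (map_zero _).symm) (e2.trans (map_zero _).symm)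
      rw [h3]
      exact Ideal.zero_mem _
    · intro g i j
      have h1 := h1.canon.resid g i j
      rw [hmA, ← AlgHom.commutes pA, ← map_sub] at h1
      intro hu
      exact h1 (hu.map pA)
    · apply hinj'
      · rw [← hgA, h1.canon.canα, map_zero]
      · rw [← hgB, h2.canon.canα, map_zero]
    · apply hinj'
      · rw [← hgA, h1.canon.canβ0, map_zero]
      · rw [← hgB, h2.canon.canβ0, map_zero]
    · apply hinj'
      · rw [← hgA, h1.canon.canβ1, map_one]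
      · rw [← hgB, h2.canon.canβ1, map_one]
  refine ⟨h, h𝒟.of_fibreProduct hA hB hC hP f g pA pB hpA hpB hfg hinj hsurj ?_ ?_⟩
  · obtain ⟨e⟩ := h.rep_baseChangeAlong pA hpA
    exact h𝒟.of_isEquiv hA ⟨e.symm⟩ hd1
  · obtain ⟨e⟩ := h.rep_baseChangeAlong pB hpB
    exact h𝒟.of_isEquiv hB ⟨e.symm⟩ hd2

include h𝒟 in
theorem Framed.type_iff {A : Type} [CommRing A] [IsLocalRing A] [IsNoetherianRing A]
    [IsAdicComplete (maximalIdeal A) A] [Algebra 𝒪 A] (hloc : IsLocalHom (algebraMap 𝒪 A))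
    (hres : Function.Surjective (IsLocalRing.residue A ∘ algebraMap 𝒪 A))
    {u : PP 𝒪 →ₐ[𝒪] A} (h : Framed F u) :
    𝒟 h.rep ↔ ∀ ⦃B : Type⦄ [CommRing B] [IsLocalRing B] [Algebra 𝒪 B],
      IsArtinianTestAlgebra 𝒪 B → ∀ (q : A →ₐ[𝒪] B), IsLocalHom (q : A →+* B) →
        Function.Surjective q → Good F 𝒟 (q.comp u) := by
  rw [h𝒟.iff_forall_surjective hloc hres h.rep]
  constructor
  · intro H B _ _ _ hB q hq hqs
    exact ⟨h.comp q hq, h𝒟.of_isEquiv hB (h.rep_baseChangeAlong q hq) (H hB q hq hqs)⟩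
  · intro H B _ _ _ hB q hq hqs
    obtain ⟨h2, hd⟩ := H hB q hq hqs
    obtain ⟨e⟩ := h.rep_baseChangeAlong q hq
    exact h𝒟.of_isEquiv hB ⟨e.symm⟩ hd

end

section Existence

variable (ρbar : ResidualGaloisRep (ResidueField 𝒪))
  (b : Module.Basis (Fin 2) (ResidueField 𝒪) ρbar.V)
  (hF : ∀ g i j, residue 𝒪 (F.M g i j) = resMat ρbar b g i j)

include hF in
theorem exists_framed {A : Type} [CommRing A] [IsLocalRing A] [Algebra 𝒪 A]
    [IsLocalHom (algebraMap 𝒪 A)] [IsAdicComplete (maximalIdeal A) A] (ρ : GaloisRepAdic A)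
    (h : ρ.residual.IsEquiv (ρbar.baseChangeAlong (ResidueField.map (algebraMap 𝒪 A)))) :
    ∃ (u : PP 𝒪 →ₐ[𝒪] A) (h : Framed F u), ρ.IsEquiv h.rep := by
  obtain ⟨T, hT, hres, ⟨e⟩⟩ := exists_matRep ρbar b _ ρ h
  have hR : ResidOK F T := by
    intro g i j
    have h1 := hres g i j
    rw [← hF, ResidueField.map_residue, ← sub_eq_zero, ← map_sub,
      IsLocalRing.residue_eq_zero_iff] at h1
    exact h1
  obtain ⟨T', Q, Q', hc, hQ, hQ', hT'⟩ := exists_canon F hR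
  have hT'c : MatCont T' := hT.conj Q Q' hQ' hT'
  let u : PP 𝒪 →ₐ[𝒪] A := MvPolynomial.aeval fun x => T' x.1 x.2.1 x.2.2
  have hu : ∀ g, mat u g = T' g := by
    intro g
    ext i j
    simp [mat, u]
  have hu' : mat u = T' := funext hu
  have hfr : Framed F u := by
    refine ⟨?_, ?_, ?_, ?_⟩
    · rw [hu, map_one]
    · intro g h; rw [hu, hu, hu, map_mul]
    · rw [hu']; exact hT'c
    · rw [hu']; exact hc
  refine ⟨u, hfr, ?_⟩
  have h2 : (matRep T hT).IsEquiv (matRep T' hT'c) :=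
    matRep_isEquiv_of_conj hT hT'c Q' Q hQ' hQ (fun g => by
      rw [hT', mul_assoc (Q' * T g), hQ, mul_one])
  have h3 : (matRep T' hT'c).IsEquiv hfr.rep :=
    matRep_isEquiv_of_conj _ _ 1 1 (mul_one _) (mul_one _) (fun g => by
      rw [one_mul, mul_one]
      exact (hu g).symm)
  obtain ⟨e2⟩ := h2
  obtain ⟨e3⟩ := h3
  exact ⟨(e.trans e2).trans e3⟩

include hF in
theorem Framed.residual_isEquiv {A : Type} [CommRing A] [IsLocalRing A] [Algebra 𝒪 A]
    [IsLocalHom (algebraMap 𝒪 A)] {u : PP 𝒪 →ₐ[𝒪] A} (h : Framed F u) :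
    h.rep.residual.IsEquiv (ρbar.baseChangeAlong (ResidueField.map (algebraMap 𝒪 A))) := by
  refine matRep_residual_isEquiv ρbar b _ h.hom h.cont fun g i j => ?_
  have h1 := h.canon.resid g i j
  rw [← hF, ResidueField.map_residue, ← sub_eq_zero, ← map_sub,
    IsLocalRing.residue_eq_zero_iff]
  exact h1

end Existence

end Fermat.Agent.DefRing
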