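import Fermat.Agent.DefRing.Family

set_option autoImplicit false
set_option maxHeartbeats 400000

namespace Fermat.Agent.DefRing

open Matrix IsLocalRing GaloisRep

section Sep

variable {𝒪 : Type} [CommRing 𝒪] [IsLocalRing 𝒪]

/-- the dual numbers over the residue field -/
def Dk (𝒪 : Type) [CommRing 𝒪] [IsLocalRing 𝒪] : Type := DualNumber (ResidueField 𝒪)

noncomputable instance : CommRing (Dk 𝒪) := inferInstanceAs (CommRing (DualNumber (ResidueField 𝒪)))
noncomputable instance : IsLocalRing (Dk 𝒪) :=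
  inferInstanceAs (IsLocalRing (DualNumber (ResidueField 𝒪)))
noncomputable instance : Algebra 𝒪 (Dk 𝒪) :=
  ((algebraMap (ResidueField 𝒪) (DualNumber (ResidueField 𝒪))).comp
      (algebraMap 𝒪 (ResidueField 𝒪))).toAlgebra

instance [Finite (ResidueField 𝒪)] : Finite (Dk 𝒪) :=
  inferInstanceAs (Finite (ResidueField 𝒪 × ResidueField 𝒪))

theorem dk_mem_maximalIdeal_iff (x : Dk 𝒪) :
    x ∈ maximalIdeal (Dk 𝒪) ↔ TrivSqZeroExt.fst (R := ResidueField 𝒪) (M := ResidueField 𝒪) x = 0 := by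
  rw [IsLocalRing.mem_maximalIdeal, mem_nonunits_iff]
  have h1 : IsUnit x ↔
      IsUnit (TrivSqZeroExt.fst (R := ResidueField 𝒪) (M := ResidueField 𝒪) x) :=
    TrivSqZeroExt.isUnit_iff_isUnit_fst (R := ResidueField 𝒪) (M := ResidueField 𝒪) (x := x)
  rw [h1, isUnit_iff_ne_zero, not_not]

theorem test_dk [Finite (ResidueField 𝒪)] : IsArtinianTestAlgebra 𝒪 (Dk 𝒪) := by
  refine ⟨⟨fun c hc => ?_⟩, fun y => ?_, inferInstance⟩
  · by_contra hu
    have h1 : algebraMap 𝒪 (Dk 𝒪) c ∈ maximalIdeal (Dk 𝒪) := by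
      rw [dk_mem_maximalIdeal_iff]
      exact (IsLocalRing.residue_eq_zero_iff c).mpr hu
    exact h1 hc
  · obtain ⟨z, rfl⟩ := residue_surjective y
    obtain ⟨c, hc⟩ := residue_surjective
      (TrivSqZeroExt.fst (R := ResidueField 𝒪) (M := ResidueField 𝒪) z)
    refine ⟨c, ?_⟩
    rw [Function.comp_apply, ← sub_eq_zero, ← map_sub, IsLocalRing.residue_eq_zero_iff,
      dk_mem_maximalIdeal_iff]
    change residue 𝒪 c - TrivSqZeroExt.fst (R := ResidueField 𝒪) (M := ResidueField 𝒪) z = 0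
    rw [hc, sub_self]

variable {P : Type} [CommRing P] [Algebra 𝒪 P] (κ : P →ₐ[𝒪] ResidueField 𝒪)

/-- homomorphisms to the dual numbers separate points of the cotangent space. -/
theorem exists_dual (W : Ideal P) (hW : W ≤ RingHom.ker κ) (hW2 : RingHom.ker κ ^ 2 ≤ W)
    (hWm : (maximalIdeal 𝒪).map (algebraMap 𝒪 P) ≤ W) (y : P) (hy : y ∈ RingHom.ker κ)
    (hyW : y ∉ W) : ∃ v : P →ₐ[𝒪] Dk 𝒪, W ≤ RingHom.ker v ∧ v y ≠ 0 := by
  -- the quotient is a `k`-algebra
  let k := ResidueField 𝒪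
  let i : k →+* P ⧸ W := Ideal.Quotient.lift (maximalIdeal 𝒪) (algebraMap 𝒪 (P ⧸ W)) (by
    intro a ha
    change Ideal.Quotient.mk W (algebraMap 𝒪 P a) = 0
    rw [Ideal.Quotient.eq_zero_iff_mem]
    exact hWm (Ideal.mem_map_of_mem _ ha))
  have hi : ∀ a, i (residue 𝒪 a) = Ideal.Quotient.mk W (algebraMap 𝒪 P a) := fun a => rfl
  letI : Algebra k (P ⧸ W) := i.toAlgebra
  have hsm : ∀ (a : 𝒪) (z : P ⧸ W), (residue 𝒪 a : k) • z =
      Ideal.Quotient.mk W (algebraMap 𝒪 P a) * z := fun a z => by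
    rw [Algebra.smul_def]; rfl
  have hnot : Ideal.Quotient.mk W y ∉ Submodule.span k {(1 : P ⧸ W)} := by
    intro h
    obtain ⟨c, hc⟩ := Submodule.mem_span_singleton.mp h
    obtain ⟨a, rfl⟩ := residue_surjective c
    rw [hsm, mul_one] at hc
    have h1 := Ideal.Quotient.eq.mp hc
    have h2 : algebraMap 𝒪 P a ∈ RingHom.ker κ := by
      have := Ideal.add_mem _ (hW h1) hy
      rwa [sub_add_cancel] at this
    rw [RingHom.mem_ker, AlgHom.commutes] at h2
    have h3 : a ∈ maximalIdeal 𝒪 := (IsLocalRing.residue_eq_zero_iff a).mp h2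
    have h4 : algebraMap 𝒪 P a ∈ W := hWm (Ideal.mem_map_of_mem _ h3)
    apply hyW
    have := Ideal.sub_mem _ h4 h1
    rwa [sub_sub_cancel] at this
  obtain ⟨lam, hlam, hlam1⟩ := Submodule.exists_dual_map_eq_bot_of_notMem hnot inferInstance
  have hl1 : lam 1 = 0 := by
    have : lam 1 ∈ Submodule.map lam (Submodule.span k {(1 : P ⧸ W)}) :=
      Submodule.mem_map_of_mem (Submodule.mem_span_singleton_self _)
    rwa [hlam1, Submodule.mem_bot] at this
  have hl : ∀ (a : 𝒪) (z : P ⧸ W), lam (Ideal.Quotient.mk W (algebraMap 𝒪 P a) * z) =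
      residue 𝒪 a * lam z := by
    intro a z
    rw [← hsm, map_smul, smul_eq_mul]
  have hmul : ∀ p q : P, lam (Ideal.Quotient.mk W (p * q)) =
      κ p * lam (Ideal.Quotient.mk W q) + κ q * lam (Ideal.Quotient.mk W p) := by
    intro p q
    obtain ⟨a, ha, hpa⟩ := exists_sub_mem_ker κ p
    obtain ⟨c, hc, hqc⟩ := exists_sub_mem_ker κ q
    have h1 : (p - algebraMap 𝒪 P a) * (q - algebraMap 𝒪 P c) ∈ W := by
      apply hW2
      rw [pow_two]
      exact Ideal.mul_mem_mul hpa hqc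
    have h2 : Ideal.Quotient.mk W (p * q) =
        Ideal.Quotient.mk W (algebraMap 𝒪 P a) * Ideal.Quotient.mk W q +
        Ideal.Quotient.mk W (algebraMap 𝒪 P c) * Ideal.Quotient.mk W p -
        Ideal.Quotient.mk W (algebraMap 𝒪 P a) * (Ideal.Quotient.mk W (algebraMap 𝒪 P c) * 1) := by
      rw [← sub_eq_zero]
      have h3 := Ideal.Quotient.eq_zero_iff_mem.mpr h1
      rw [← h3]
      simp only [map_mul, map_sub]
      ring
    rw [h2, map_sub, map_add, hl, hl, hl, hl, hl1, mul_zero, mul_zero, sub_zero, ha, hc]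
  let v : P →ₐ[𝒪] Dk 𝒪 :=
    { toFun := fun p => ((κ p, lam (Ideal.Quotient.mk W p)) : k × k)
      map_one' := by
        apply TrivSqZeroExt.ext (R := k) (M := k)
        · change κ 1 = 1
          exact map_one _
        · change lam (Ideal.Quotient.mk W 1) = 0
          rw [map_one, hl1]
      map_zero' := by
        apply TrivSqZeroExt.ext (R := k) (M := k)
        · change κ 0 = 0
          exact map_zero _
        · change lam (Ideal.Quotient.mk W 0) = 0
          rw [map_zero, map_zero]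
      map_add' := fun p q => by
        apply TrivSqZeroExt.ext (R := k) (M := k)
        · change κ (p + q) = κ p + κ q
          exact map_add _ _ _
        · change lam (Ideal.Quotient.mk W (p + q)) = lam (Ideal.Quotient.mk W p) +
            lam (Ideal.Quotient.mk W q)
          rw [map_add, map_add]
      map_mul' := fun p q => by
        apply TrivSqZeroExt.ext (R := k) (M := k)
        · change κ (p * q) = κ p * κ q
          exact map_mul _ _ _
        · change lam (Ideal.Quotient.mk W (p * q)) = κ p * lam (Ideal.Quotient.mk W q) +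
            lam (Ideal.Quotient.mk W p) * κ q
          rw [hmul, mul_comm (κ q)]
      commutes' := fun a => by
        apply TrivSqZeroExt.ext (R := k) (M := k)
        · change κ (algebraMap 𝒪 P a) = residue 𝒪 a
          exact κ.commutes a
        · change lam (Ideal.Quotient.mk W (algebraMap 𝒪 P a)) = 0
          have := hl a 1
          rwa [mul_one, hl1, mul_zero] at this }
  have hv : ∀ p, TrivSqZeroExt.snd (R := k) (M := k) (v p) = lam (Ideal.Quotient.mk W p) :=
    fun p => rfl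
  refine ⟨v, fun p hp => ?_, fun h => ?_⟩
  · rw [RingHom.mem_ker]
    apply TrivSqZeroExt.ext (R := k) (M := k)
    · change κ p = 0
      exact hW hp
    · change lam (Ideal.Quotient.mk W p) = 0
      rw [Ideal.Quotient.eq_zero_iff_mem.mpr hp, map_zero]
  · apply hlam
    rw [← hv y, h]
    rfl

end Sep

section Tangent

variable {𝒪 : Type} [CommRing 𝒪] [IsLocalRing 𝒪] [Finite (ResidueField 𝒪)]
  {F : FrameDatum 𝒪 GQ}
  {𝒟 : ∀ ⦃A : Type⦄ [CommRing A] [IsLocalRing A] [Algebra 𝒪 A], GaloisRepAdic A → Prop}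
  (h𝒟 : GaloisRep.IsDeformationCondition 𝒪 𝒟)
  (ρbar : ResidualGaloisRep (ResidueField 𝒪))
  (b : Module.Basis (Fin 2) (ResidueField 𝒪) ρbar.V)
  (hF : ∀ g i j, residue 𝒪 (F.M g i j) = resMat ρbar b g i j)
  (hfin : GaloisRep.TangentFinite 𝒪 ρbar 𝒟)

include hF hfin in
theorem finite_good_dk : Finite {v : PP 𝒪 →ₐ[𝒪] Dk 𝒪 // Good F 𝒟 v} := by
  haveI := (test_dk (𝒪 := 𝒪)).isLocalHom
  letI i1 : Algebra 𝒪 (DualNumber (ResidueField 𝒪)) :=
    ((algebraMap (ResidueField 𝒪) (DualNumber (ResidueField 𝒪))).comp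
      (algebraMap 𝒪 (ResidueField 𝒪))).toAlgebra
  letI i2 : Algebra (ResidueField 𝒪) (ResidueField (DualNumber (ResidueField 𝒪))) :=
    ((IsLocalRing.residue (DualNumber (ResidueField 𝒪))).comp
      (algebraMap (ResidueField 𝒪) (DualNumber (ResidueField 𝒪)))).toAlgebra
  unfold GaloisRep.TangentFinite at hfin
  have hψ : ResidueField.map (algebraMap 𝒪 (Dk 𝒪)) =
      (IsLocalRing.residue (DualNumber (ResidueField 𝒪))).comp
      (algebraMap (ResidueField 𝒪) (DualNumber (ResidueField 𝒪))) := by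
    apply RingHom.ext
    intro x
    obtain ⟨a, rfl⟩ := residue_surjective x
    rw [ResidueField.map_residue]
    rfl
  have hres : ∀ {v : PP 𝒪 →ₐ[𝒪] Dk 𝒪} (h : Framed F v), h.rep.residual.IsEquiv
      (ρbar.baseChange (ResidueField (DualNumber (ResidueField 𝒪)))) := by
    intro v h
    have h1 := Framed.residual_isEquiv F ρbar b hF h
    rw [hψ] at h1
    exact h1
  refine @Finite.of_injective _ _ hfin (fun v : {v : PP 𝒪 →ₐ[𝒪] Dk 𝒪 // Good F 𝒟 v} =>
    Quotient.mk _ (⟨v.2.choose.rep, v.2.choose_spec, hres v.2.choose⟩ :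
      {ρ : GaloisRepAdic (DualNumber (ResidueField 𝒪)) //
        𝒟 ρ ∧ ρ.residual.IsEquiv
          (ρbar.baseChange (ResidueField (DualNumber (ResidueField 𝒪))))})) ?_
  intro v v' hvv'
  have h1 : v.2.choose.rep.IsEquiv v'.2.choose.rep := Quotient.exact hvv'
  exact Subtype.ext (Framed.unique v.2.choose v'.2.choose h1)

include h𝒟 hF hfin in
/-- finitely many elements generate the maximal ideal modulo every member of the family. -/
theorem exists_generators (hm : (maximalIdeal 𝒪).FG) : ∃ (N : ℕ) (x : Fin N → PP 𝒪),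
    (∀ i, x i ∈ RingHom.ker (kap F)) ∧
    ∀ I ∈ Fam F 𝒟, RingHom.ker (kap F) ≤ Ideal.span (Set.range x) ⊔ I := by
  haveI := finite_good_dk (F := F) ρbar b hF hfin
  set m := RingHom.ker (kap F) with hmdef
  -- the intersection of the kernels
  let K : Ideal (PP 𝒪) := m ⊓ ⨅ v : {v : PP 𝒪 →ₐ[𝒪] Dk 𝒪 // Good F 𝒟 v}, RingHom.ker v.1
  have hKfin : Finite (PP 𝒪 ⧸ K) := by
    let f : PP 𝒪 →+* (ResidueField 𝒪) × ({v : PP 𝒪 →ₐ[𝒪] Dk 𝒪 // Good F 𝒟 v} → Dk 𝒪) :=
      RingHom.prod (kap F : PP 𝒪 →+* ResidueField 𝒪)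
        (RingHom.pi fun v => (v.1 : PP 𝒪 →+* Dk 𝒪))
    have hf : RingHom.ker f = K := by
      ext p
      simp only [f, K, RingHom.mem_ker, RingHom.prod_apply, Prod.mk_eq_zero, Ideal.mem_inf,
        Ideal.mem_iInf, hmdef]
      refine and_congr Iff.rfl ?_
      rw [funext_iff]
      rfl
    rw [← hf]
    exact Finite.of_injective _ (RingHom.kerLift_injective f)
  have hKI : ∀ I ∈ Fam F 𝒟, K ≤ m ^ 2 ⊔ I ⊔ (maximalIdeal 𝒪).map (algebraMap 𝒪 (PP 𝒪)) := by
    intro I hI y hy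
    by_contra hyW
    have hIm := fam_le hI
    have hWm : m ^ 2 ⊔ I ⊔ (maximalIdeal 𝒪).map (algebraMap 𝒪 (PP 𝒪)) ≤ m := by
      refine sup_le (sup_le (Ideal.pow_le_self two_ne_zero) hIm) ?_
      rw [Ideal.map_le_iff_le_comap]
      intro a ha
      rw [Ideal.mem_comap, hmdef, RingHom.mem_ker, AlgHom.commutes]
      exact (IsLocalRing.residue_eq_zero_iff a).mpr ha
    obtain ⟨v, hv, hvy⟩ := exists_dual (kap F) _ hWm
      (le_sup_left.trans le_sup_left) le_sup_right y hy.1 hyW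
    obtain ⟨_, hA, hg⟩ := hI
    haveI := hA.isArtinian
    have hIv : ∀ a ∈ I, v a = 0 := fun a ha =>
      hv (le_sup_left (a := m ^ 2 ⊔ I) (le_sup_right (a := m ^ 2) ha))
    have h1 := hg.comp h𝒟 hA test_dk (Ideal.Quotient.liftₐ I v hIv) (isLocalHom_of_artinian _)
    have h2 : (Ideal.Quotient.liftₐ I v hIv).comp (Ideal.Quotient.mkₐ 𝒪 I) = v := by
      ext x
      rfl
    rw [h2] at h1
    have h3 := (Ideal.mem_iInf.mp hy.2) ⟨v, h1⟩
    exact hvy h3
  -- generators
  obtain ⟨s, hs⟩ := hm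
  let T : Type := {y : PP 𝒪 ⧸ K // Quotient.out y ∈ m} ⊕ s
  haveI : Finite T := inferInstanceAs (Finite (_ ⊕ _))
  let x0 : T → PP 𝒪 := Sum.elim (fun y => Quotient.out y.1) (fun a => algebraMap 𝒪 (PP 𝒪) a.1)
  obtain ⟨N, ⟨e⟩⟩ := Finite.exists_equiv_fin T
  have hx0 : ∀ t, x0 t ∈ m := by
    rintro (y | a)
    · exact y.2
    · change algebraMap 𝒪 (PP 𝒪) a.1 ∈ m
      rw [hmdef, RingHom.mem_ker, AlgHom.commutes]
      refine (IsLocalRing.residue_eq_zero_iff a.1).mpr ?_
      rw [← hs]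
      exact Ideal.subset_span a.2
  refine ⟨N, fun i => x0 (e.symm i), fun i => hx0 _, fun I hI => ?_⟩
  have hrange : Set.range (fun i => x0 (e.symm i)) = Set.range x0 := e.symm.surjective.range_comp x0
  rw [hrange]
  set X := Ideal.span (Set.range x0) with hX
  have h1 : m ≤ X ⊔ K := by
    intro p hp
    have hout : Quotient.out (Ideal.Quotient.mk K p) - p ∈ K := by
      rw [← Ideal.Quotient.eq]
      exact Quotient.out_eq _
    have hom : Quotient.out (Ideal.Quotient.mk K p) ∈ m := by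
      have := Ideal.add_mem _ (show _ ∈ m from hout.1) hp
      rwa [sub_add_cancel] at this
    have h2 : Quotient.out (Ideal.Quotient.mk K p) ∈ X :=
      Ideal.subset_span ⟨Sum.inl ⟨Ideal.Quotient.mk K p, hom⟩, rfl⟩
    have := Ideal.sub_mem (X ⊔ K) (Ideal.mem_sup_left h2) (Ideal.mem_sup_right hout)
    rwa [sub_sub_cancel] at this
  have h2 : (maximalIdeal 𝒪).map (algebraMap 𝒪 (PP 𝒪)) ≤ X := by
    rw [← hs, Ideal.map_span, Ideal.span_le]
    rintro _ ⟨a, ha, rfl⟩
    exact Ideal.subset_span ⟨Sum.inr ⟨a, ha⟩, rfl⟩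
  have h3 : m ≤ (X ⊔ I) ⊔ m ^ 2 := by
    refine h1.trans (sup_le (le_sup_left.trans le_sup_left) ((hKI I hI).trans ?_))
    refine sup_le (sup_le le_sup_right (le_sup_right.trans le_sup_left))
      (h2.trans (le_sup_left.trans le_sup_left))
  have h4 : ∀ s : ℕ, m ≤ (X ⊔ I) ⊔ m ^ (s + 1) := by
    intro s
    induction s with
    | zero => rw [zero_add, pow_one]; exact le_sup_right
    | succ s ih =>
      refine ih.trans (sup_le le_sup_left ?_)
      calc m ^ (s + 1) = m ^ s * m := pow_succ _ _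
        _ ≤ m ^ s * ((X ⊔ I) ⊔ m ^ 2) := Ideal.mul_mono_right h3
        _ = m ^ s * (X ⊔ I) ⊔ m ^ (s + 1 + 1) := by
          rw [Ideal.mul_sup, ← pow_add]
        _ ≤ _ := sup_le_sup_right (Ideal.mul_le_right) _
  obtain ⟨r, hr⟩ := fam_pow_le hI
  refine (h4 r).trans (sup_le le_rfl ?_)
  exact ((Ideal.pow_le_pow_right (Nat.le_succ r)).trans hr).trans le_sup_right

end Tangent

end Fermat.Agent.DefRing
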